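/-
S55 (Poitou–Tate), package C5 → C8, leaf (SUBTOWER-COMPAT) (helper45; task 442, second prover).

For number fields `k ⊆ E ⊆ K`, `K / k` finite normal, in helper88's embedding model
(`H88/LayerDefs.lean`, `H88/TowerData.lean`):

  `subTowerCompat : (H88.subTowerOf k E K).Compat`   (= `H88.SubTowerCompatStatement k K E`)

i.e. for every finite place `w` of `E` and every class `α ∈ H²(Gal(K/k), Kˣ)`
  `linv_{K/E, w} (res α) = [E_w : k_v] • linv_{K/k, v} α`   (`v` the place of `k` below `w`),
from C3's `H66.LeafInvRes` and (LINV-INDEP) `H88.LinvIndepStatement k K` (hypotheses).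

Proof.  (1) (LINV-INDEP) replaces the chosen embedding above `v` by the chosen embedding
`τ' = w.ext K` above `w` (same place of `k`).  (2) For ONE embedding `τ'` (`linvAt_sub`): the
composite `Gal(K_w/E_w) → Gal(K/E) → Gal(K/k)` equals `Gal(K_w/E_w) → Gal(K_w/k_v) → Gal(K/k)`
(`galHom_eq`), so by functoriality of `groupCohomology.map` (`map_three_eq_map_two`) localisation
commutes with restriction (`locH2At_sub`); then `H66.LeafInvRes` for `k_v ⊆ E_w ⊆ K_w`.  The two
presentations of `K_w / E_w` (C5's `locExt q E τ'` over `locBase q E τ'`, and C3's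
`extendScalars` over `E_w` as an intermediate field of `Ω / k_v`) are definitionally equal, so
no transport is needed (`upHomE`, `upRepE`).  (3) `finrank_locExt_eq`: the local degree in both
presentations.
-/
import Fermat.Agent.S55.H88.LayerSpec
import Fermat.Agent.S55.H41.SumLocalDegree
import Fermat.Agent.S55.H20.Decomp

set_option autoImplicit false

open scoped IntermediateField NNReal
open CategoryTheory

noncomputable section

namespace Fermat.Agent.S55.H45

open Fermat.Agent.S55 Fermat.Agent.S55.H88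

/-- Abstract functoriality square for `groupCohomology.map`: a composite of three maps equals a
composite of two maps when the composite group homomorphisms agree and the composite
coefficient maps agree. -/
theorem map_three_eq_map_two {R : Type} [CommRing R] {G₁ G₂ G₃ G₄ H : Type} [Group G₁] [Group G₂]
    [Group G₃] [Group G₄] [Group H]
    {A₁ : Rep.{0} R G₁} {A₂ : Rep.{0} R G₂} {A₃ : Rep.{0} R G₃} {A₄ : Rep.{0} R G₄} {B : Rep.{0} R H}
    (f₁ : G₂ →* G₁) (φ₁ : Rep.res f₁ A₁ ⟶ A₂) (f₂ : G₃ →* G₂) (φ₂ : Rep.res f₂ A₂ ⟶ A₃)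
    (f₃ : G₄ →* G₃) (φ₃ : Rep.res f₃ A₃ ⟶ A₄)
    (g₁ : H →* G₁) (ψ₁ : Rep.res g₁ A₁ ⟶ B) (g₂ : G₄ →* H) (ψ₂ : Rep.res g₂ B ⟶ A₄)
    (hf : (f₁.comp f₂).comp f₃ = g₁.comp g₂)
    (hφ : (φ₃.hom.toLinearMap ∘ₗ φ₂.hom.toLinearMap) ∘ₗ φ₁.hom.toLinearMap =
      ψ₂.hom.toLinearMap ∘ₗ ψ₁.hom.toLinearMap)
    (n : ℕ) (x : groupCohomology A₁ n) :
    (groupCohomology.map f₃ φ₃ n).hom ((groupCohomology.map f₂ φ₂ n).hom
      ((groupCohomology.map f₁ φ₁ n).hom x)) =
    (groupCohomology.map g₂ ψ₂ n).hom ((groupCohomology.map g₁ ψ₁ n).hom x) := by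
  have e1 := groupCohomology.map_comp f₁ f₂ φ₁ φ₂ n
  have e2 := groupCohomology.map_comp (f₁.comp f₂) f₃ ((Rep.resFunctor f₂).map φ₁ ≫ φ₂) φ₃ n
  have e3 := groupCohomology.map_comp g₁ g₂ ψ₁ ψ₂ n
  have e4 := groupCohomology.map_congr (A := A₁) (B := A₄) hf
    (φ := (Rep.resFunctor f₃).map ((Rep.resFunctor f₂).map φ₁ ≫ φ₂) ≫ φ₃)
    (ψ := (Rep.resFunctor g₂).map ψ₁ ≫ ψ₂) hφ n
  rw [e2, e1, e3] at e4
  have := congrArg (fun m => m.hom x) e4
  exact this


variable (q : ℕ) [Fact q.Prime]
variable (k E K : Type) [Field k] [Field E] [Field K] [Algebra k E] [Algebra E K] [Algebra k K]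
  [IsScalarTower k E K] (τ' : K →+* PadicAlgCl q)

theorem locBase_le_locBase : locBase q k τ' ≤ locBase q E τ' :=
  IntermediateField.adjoin.mono _ _ _ (by
    rintro _ ⟨x, rfl⟩
    exact ⟨algebraMap k E x, by
      show τ' (algebraMap E K (algebraMap k E x)) = τ' (algebraMap k K x)
      rw [← IsScalarTower.algebraMap_apply]⟩)

/-- `E_w` over `k_v`. -/
def midExt : IntermediateField (locBase q k τ') (PadicAlgCl q) :=
  IntermediateField.extendScalars (locBase_le_locBase q k E K τ')

theorem midExt_le : midExt q k E K τ' ≤ locExt q k τ' := fun _ hx => locBase_le q E τ' hx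

variable [Normal k K] [Normal E K]

/-- `H66.upHom` for `E_w ≤ K_w` over `k_v`, with its source presented as
`Gal(K_w/E_w)` in C5's presentation. -/
def upHomE : (locExt q E τ' ≃ₐ[locBase q E τ'] locExt q E τ') →*
    (locExt q k τ' ≃ₐ[locBase q k τ'] locExt q k τ') :=
  H66.upHom (midExt_le q k E K τ')

/-- `H66.upRep` in C5's presentation. -/
def upRepE :
    Rep.res (upHomE q k E K τ') (Rep.ofAlgebraAutOnUnits (locBase q k τ') (locExt q k τ')) ⟶
      Rep.ofAlgebraAutOnUnits (locBase q E τ') (locExt q E τ') :=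
  H66.upRep (midExt_le q k E K τ')

omit [Normal k K] [Normal E K] in
theorem upHomE_apply_coe (β : locExt q E τ' ≃ₐ[locBase q E τ'] locExt q E τ') (x : K) :
    ((upHomE q k E K τ' β (locExtEmb q k τ' x) : locExt q k τ') : PadicAlgCl q) =
      ((β (locExtEmb q E τ' x) : locExt q E τ') : PadicAlgCl q) := by
  have h3 : (H66.upEquiv (midExt_le q k E K τ')).symm (locExtEmb q k τ' x) = locExtEmb q E τ' x :=
    Subtype.ext (H66.upEquiv_symm_apply_coe _ _)
  exact (H66.upHom_apply_coe (midExt_le q k E K τ') β (locExtEmb q k τ' x)).trans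
    (congrArg (fun y : locExt q E τ' => ((β y : locExt q E τ') : PadicAlgCl q)) h3)

/-- The two composite maps `Gal(K_w/E_w) → Gal(K/k)` agree. -/
theorem galHom_eq :
    ((fixSubgroup k E K).subtype.comp (galToFix k E K)).comp (locGalToGlobal q E τ') =
    (locGalToGlobal q k τ').comp (upHomE q k E K τ') := by
  refine MonoidHom.ext fun β => AlgEquiv.ext fun x => τ'.injective ?_
  have h1 := congrArg (fun y : locExt q E τ' => (y : PadicAlgCl q))
    (locGalToGlobal_spec q E τ' β x)
  have h2 := congrArg (fun y : locExt q k τ' => (y : PadicAlgCl q))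
    (locGalToGlobal_spec q k τ' (upHomE q k E K τ' β) x)
  simp only [coe_locExtEmb] at h1 h2
  show τ' ((locGalToGlobal q E τ' β) x) = τ' ((locGalToGlobal q k τ' (upHomE q k E K τ' β)) x)
  rw [← h1, ← h2, upHomE_apply_coe]

/-- Localisation at `τ'` of the restriction to `Gal(K/E)` = local restriction of the
localisation. -/
theorem locH2At_sub (α : groupCohomology (Rep.ofAlgebraAutOnUnits k K) 2) :
    locH2At q E τ' (subH2 k E K
        (H29.resH2 (Rep.ofAlgebraAutOnUnits k K) (fixSubgroup k E K) α)) =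
    (groupCohomology.map (upHomE q k E K τ') (upRepE q k E K τ') 2).hom (locH2At q k τ' α) := by
  refine map_three_eq_map_two (fixSubgroup k E K).subtype
    (𝟙 (Rep.res (fixSubgroup k E K).subtype (Rep.ofAlgebraAutOnUnits k K)))
    (galToFix k E K) (resUnitsHom k E K) (locGalToGlobal q E τ') (globalToLocUnits q E τ')
    (locGalToGlobal q k τ') (globalToLocUnits q k τ') (upHomE q k E K τ') (upRepE q k E K τ')
    (galHom_eq q k E K τ') ?_ 2 α
  refine LinearMap.ext fun u => ?_
  show Additive.ofMul (Units.map (locExtEmb q E τ' : K →* locExt q E τ')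
    (Additive.toMul (α := Kˣ) u)) = _
  apply Additive.toMul.injective
  apply Units.ext
  apply Subtype.ext
  exact (H66.upEquiv_symm_apply_coe (midExt_le q k E K τ')
    (locExtEmb q k τ' ((Additive.toMul (α := Kˣ) u : Kˣ) : K))).symm

/-- **Restriction for one embedding**: `inv_{K_w/E_w} (loc (res α)) = [E_w : k_v] • inv_{K_w/k_v} (loc α)`. -/
theorem linvAt_sub [NumberField k] [FiniteDimensional k K] (hRes : H66.LeafInvRes q)
    (α : groupCohomology (Rep.ofAlgebraAutOnUnits k K) 2) :
    linvAt q E τ' (subH2 k E K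
        (H29.resH2 (Rep.ofAlgebraAutOnUnits k K) (fixSubgroup k E K) α)) =
      Module.finrank (locBase q k τ') (midExt q k E K τ') • linvAt q k τ' α := by
  haveI : FiniteDimensional E K := Module.Finite.right k E K
  haveI h1 : FiniteDimensional ℚ_[q] (locBase q k τ') :=
    H41.finiteDimensional_locField q k (τ'.comp (algebraMap k K))
  haveI h2 : FiniteDimensional (locBase q k τ') (locExt q k τ') :=
    H20.finiteDimensional_extendScalars q k τ'
  haveI h3 : FiniteDimensional (locBase q k τ') (midExt q k E K τ') :=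
    Module.Finite.of_injective (IntermediateField.inclusion (midExt_le q k E K τ')).toLinearMap
      (IntermediateField.inclusion_injective (midExt_le q k E K τ'))
  haveI h4 : IsGalois (locBase q k τ') (locExt q k τ') := ⟨⟩
  haveI h5 : FiniteDimensional (midExt q k E K τ')
      (IntermediateField.extendScalars (midExt_le q k E K τ')) :=
    H20.finiteDimensional_extendScalars q E τ'
  haveI h6' : IsGalois (locBase q E τ') (locExt q E τ') := ⟨⟩
  haveI h6 : IsGalois (midExt q k E K τ')
      (IntermediateField.extendScalars (midExt_le q k E K τ')) := h6'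
  have h := hRes (locBase q k τ') (midExt q k E K τ') (locExt q k τ') (midExt_le q k E K τ')
    (locH2At q k τ' α)
  show H66.inv q (locExt q E τ') (locH2At q E τ' _) = _ • H66.inv q (locExt q k τ') (locH2At q k τ' α)
  rw [locH2At_sub]
  exact h

omit [Normal k K] [Normal E K] in
/-- The local degree does not depend on the presentation of the base. -/
theorem finrank_locExt_eq (τE : E →+* PadicAlgCl q) (hτ : τ'.comp (algebraMap E K) = τE) :
    Module.finrank (locBase q k τE) (locExt q k τE) =
      Module.finrank (locBase q k τ') (midExt q k E K τ') := by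
  subst hτ
  have h0 : (τ'.comp (algebraMap E K)).comp (algebraMap k E) = τ'.comp (algebraMap k K) :=
    RingHom.ext fun x => by
      show τ' (algebraMap E K (algebraMap k E x)) = τ' (algebraMap k K x)
      rw [← IsScalarTower.algebraMap_apply]
  have key : ∀ (ρ₁ ρ₂ : k →+* PadicAlgCl q) (_ : ρ₁ = ρ₂)
      (T : IntermediateField ℚ_[q] (PadicAlgCl q)) (h₁ : locField q ρ₁ ≤ T) (h₂ : locField q ρ₂ ≤ T),
      Module.finrank (locField q ρ₁) (IntermediateField.extendScalars h₁) =
        Module.finrank (locField q ρ₂) (IntermediateField.extendScalars h₂) := by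
    intro ρ₁ ρ₂ h T h₁ h₂
    subst h
    rfl
  exact key _ _ h0 (locBase q E τ') (locBase_le q k (τ'.comp (algebraMap E K)))
    (locBase_le_locBase q k E K τ')

end Fermat.Agent.S55.H45

namespace Fermat.Agent.S55.H45

open Fermat.Agent.S55 Fermat.Agent.S55.H88

attribute [local instance] factOfPrimes

/-- **C5 leaf (SUBTOWER-COMPAT)**: restriction to `Gal(K/E)` multiplies the local invariants by
the local degrees. -/
theorem subTowerCompat (k E K : Type) [Field k] [Field E] [Field K] [NumberField k]
    [Algebra k E] [Algebra E K] [Algebra k K] [IsScalarTower k E K] [FiniteDimensional k K]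
    [Normal k K] (hRes : ∀ (q : ℕ) [Fact q.Prime], H66.LeafInvRes q)
    (hIndep : LinvIndepStatement k K) : SubTowerCompatStatement k K E := by
  intro w α
  haveI : Normal E K := Normal.tower_top_of_normal k E K
  -- the embedding of `K` chosen above `w`
  have hτ : (w.ext K).comp (algebraMap E K) = w.emb := FinPlace.ext_comp K w
  have hk : (w.ext K).comp (algebraMap k K) = w.emb.comp (algebraMap k E) := by
    rw [← hτ]
    refine RingHom.ext fun x => ?_
    show (w.ext K) (algebraMap k K x) = (w.ext K) (algebraMap E K (algebraMap k E x))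
    rw [← IsScalarTower.algebraMap_apply]
  -- (1) LINV-INDEP
  have hrel : (placeSetoid (w.1 : ℕ) k).r (((w.below k).ext K).comp (algebraMap k K))
      ((w.ext K).comp (algebraMap k K)) := by
    rw [FinPlace.ext_comp K (w.below k), hk]
    refine Quotient.exact (s := placeSetoid (w.1 : ℕ) k) ?_
    have h1 : (⟦(w.below k).emb⟧ : Quotient (placeSetoid (w.1 : ℕ) k)) = (w.below k).2 :=
      Quotient.out_eq _
    have h2 : (⟦w.emb⟧ : Quotient (placeSetoid (w.1 : ℕ) E)) = w.2 := Quotient.out_eq _
    rw [h1]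
    show PlaceAbove.restrict (w.1 : ℕ) k E w.2 = _
    rw [← h2]
    rfl
  have hind := hIndep (w.1 : ℕ) ((w.below k).ext K) (w.ext K) hrel
  show linvAt (w.1 : ℕ) E (w.ext K) (subH2 k E K
      (H29.resH2 (Rep.ofAlgebraAutOnUnits k K) (fixSubgroup k E K) α)) =
    Module.finrank (locBase (w.1 : ℕ) k w.emb) (locExt (w.1 : ℕ) k w.emb) •
      linvAt (w.1 : ℕ) k ((w.below k).ext K) α
  rw [hind, finrank_locExt_eq (w.1 : ℕ) k E K (w.ext K) w.emb hτ]
  exact linvAt_sub (w.1 : ℕ) k E K (w.ext K) (hRes (w.1 : ℕ)) α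

end Fermat.Agent.S55.H45
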