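/-
S55 (Poitou–Tate), package C1 (finite-group cohomology tools), leaf C1-d (helper45):
dévissage from the cyclic layers of prime order to an arbitrary finite group.

The two statements of helper84's `C1Spec` (`isZero_H1_of_prime_layers`,
`natCard_H2_dvd_card_of_prime_layers`) are proved here from the *statements* of C1-b
(kernel of restriction killed by the index, Sylow corollaries) and C1-c (inflation–restriction
in degree 2), which are taken as explicit `Prop`-valued hypotheses mirroring the spec verbatim.
Mathlib only.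
-/
import Mathlib

set_option autoImplicit false

universe u

open CategoryTheory groupCohomology Rep

namespace Fermat.Agent.S55.H45

/-! ## Statement shapes consumed (C1-b, C1-c) -/

/-- C1-b `card_smul_eq_zero`: `Hⁿ(G, A)` (`n = 1, 2`) of a finite group is killed by `|G|`. -/
def CardSmulStatement (k : Type u) [CommRing k] : Prop :=
  ∀ (G : Type u) [Group G] [Finite G] (A : Rep k G) (n : ℕ), n = 1 ∨ n = 2 →
    ∀ x : groupCohomology A n, Nat.card G • x = 0

/-- C1-b `isZero_of_forall_prime` (Sylow corollary, vanishing). -/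
def SylowZeroStatement (k : Type u) [CommRing k] : Prop :=
  ∀ (G : Type u) [Group G] [Finite G] (A : Rep k G) (n : ℕ), n = 1 ∨ n = 2 →
    (∀ p : ℕ, p.Prime → ∃ S : Subgroup G, ¬ p ∣ S.index ∧
      Limits.IsZero (groupCohomology (res S.subtype A) n)) →
    Limits.IsZero (groupCohomology A n)

/-- C1-b `natCard_dvd_card_of_forall_prime` (Sylow corollary, orders). -/
def SylowCardStatement (k : Type u) [CommRing k] : Prop :=
  ∀ (G : Type u) [Group G] [Finite G] (A : Rep k G) (n : ℕ), n = 1 ∨ n = 2 →
    (∀ p : ℕ, p.Prime → ∃ S : Subgroup G, ¬ p ∣ S.index ∧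
      Nat.card (groupCohomology (res S.subtype A) n) ∣ Nat.card S) →
    Nat.card (groupCohomology A n) ∣ Nat.card G

/-- C1-c `H2InfRes_exact`, in elementwise form: if `H¹(S, A) = 0`, a class of `H²(G, A)` whose
restriction to the normal subgroup `S` vanishes is inflated from `H²(G ⧸ S, A^S)`. -/
def InfRes2Statement (k : Type u) [CommRing k] : Prop :=
  ∀ (G : Type u) [Group G] (A : Rep k G) (S : Subgroup G) [S.Normal],
    Limits.IsZero (groupCohomology (res S.subtype A) 1) →
    ∀ x : groupCohomology A 2, (map S.subtype (𝟙 (res S.subtype A)) 2).hom x = 0 →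
      ∃ y : groupCohomology (A.quotientToInvariants S) 2,
        (map (QuotientGroup.mk' S) (ofHom <| A.ρ.quotientToInvariants_lift S) 2).hom y = x

variable {k : Type u} [CommRing k]

/-! ## Transport: a subgroup of a subgroup -/

/-- The cohomology of a subgroup `N` of a subgroup `H ≤ G` (with coefficients restricted twice)
is the cohomology of the image of `N` in `G`. -/
noncomputable def resResIso {G : Type u} [Group G] (A : Rep k G) (H : Subgroup G)
    (N : Subgroup H) (n : ℕ) :
    groupCohomology (res N.subtype (res H.subtype A)) n ≅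
      groupCohomology (res (N.map H.subtype).subtype A) n :=
  mapIso (A := res (N.map H.subtype).subtype A) (B := res N.subtype (res H.subtype A))
    (N.equivMapOfInjective H.subtype H.subtype_injective) (LinearEquiv.refl k _)
    (fun _ => rfl) n

/-! ## The trivial group -/

lemma subsingleton_of_card_eq_one (hcs : CardSmulStatement k) {G : Type u} [Group G]
    (hG : Nat.card G = 1) (A : Rep k G) (n : ℕ) (hn : n = 1 ∨ n = 2) :
    Subsingleton (groupCohomology A n) := by
  have : Finite G := Nat.finite_of_card_ne_zero (by rw [hG]; exact one_ne_zero)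
  refine ⟨fun x y => ?_⟩
  have hx := hcs G A n hn x
  have hy := hcs G A n hn y
  rw [hG, one_smul] at hx hy
  rw [hx, hy]

/-! ## Index-`p` normal subgroups of `p`-groups -/

lemma exists_normal_index_prime {P : Type u} [Group P] {p n : ℕ} (hp : p.Prime)
    (hP : Nat.card P = p ^ (n + 1)) :
    ∃ N : Subgroup P, N.Normal ∧ Nat.card N = p ^ n ∧ Nat.card (P ⧸ N) = p := by
  have : Fact p.Prime := ⟨hp⟩
  have : Finite P := Nat.finite_of_card_ne_zero (by rw [hP]; exact pow_ne_zero _ hp.ne_zero)
  obtain ⟨N, hN⟩ := Sylow.exists_subgroup_card_pow_prime (G := P) p (n := n)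
    (by rw [hP]; exact pow_dvd_pow p (Nat.le_succ n))
  have hidx : N.index = p := by
    have h1 := N.card_mul_index
    rw [hN, hP, pow_succ] at h1
    exact Nat.eq_of_mul_eq_mul_left (pow_pos hp.pos n) h1
  refine ⟨N, ?_, hN, ?_⟩
  · apply Subgroup.normal_of_index_eq_minFac_card
    rw [hidx, hP, Nat.Prime.pow_minFac hp (Nat.succ_ne_zero n)]
  · rw [← Subgroup.index_eq_card, hidx]

/-! ## Degree 1 -/

/-- `p`-group step in degree 1. -/
theorem isZero_H1_of_pgroup (hcs : CardSmulStatement k) {G : Type u} [Group G] (A : Rep k G)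
    (h : ∀ (H : Subgroup G) (N : Subgroup H) [N.Normal], (Nat.card (H ⧸ N)).Prime →
      Limits.IsZero (groupCohomology ((res H.subtype A).quotientToInvariants N) 1))
    {p : ℕ} (hp : p.Prime) :
    ∀ (n : ℕ) (P : Subgroup G), Nat.card P = p ^ n →
      Limits.IsZero (groupCohomology (res P.subtype A) 1) := by
  intro n
  induction n with
  | zero =>
    intro P hP
    rw [pow_zero] at hP
    have := subsingleton_of_card_eq_one hcs hP (res P.subtype A) 1 (Or.inl rfl)
    exact ModuleCat.isZero_of_subsingleton _
  | succ n ih =>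
    intro P hP
    obtain ⟨N, hNn, hN, hq⟩ := exists_normal_index_prime hp hP
    have h1 := h P N (by rw [hq]; exact hp)
    have h3 : Limits.IsZero (groupCohomology (res N.subtype (res P.subtype A)) 1) :=
      (ih (N.map P.subtype) (by
        rw [Subgroup.card_map_of_injective P.subtype_injective]; exact hN)).of_iso
        (resResIso A P N 1)
    exact (H1InfRes_exact (res P.subtype A) N).isZero_X₂ (h1.eq_of_src _ _) (h3.eq_of_tgt _ _)

/-- **C1-d (degree 1)**, from the C1-b statements. -/
theorem isZero_H1_of_prime_layers_of (hcs : CardSmulStatement k) (hsz : SylowZeroStatement k)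
    {G : Type u} [Group G] [Finite G] (A : Rep k G)
    (h : ∀ (H : Subgroup G) (N : Subgroup H) [N.Normal], (Nat.card (H ⧸ N)).Prime →
      Limits.IsZero (groupCohomology ((res H.subtype A).quotientToInvariants N) 1)) :
    Limits.IsZero (groupCohomology A 1) := by
  refine hsz G A 1 (Or.inl rfl) (fun p hp => ?_)
  have : Fact p.Prime := ⟨hp⟩
  obtain ⟨P⟩ : Nonempty (Sylow p G) := inferInstance
  exact ⟨P, P.not_dvd_index, isZero_H1_of_pgroup hcs A h hp _ P P.card_eq_multiplicity⟩

/-! ## Degree 2 -/

/-- Cardinality in an exact sequence `X₁ → X₂ → X₃` of modules: if `#X₁ ∣ a` and `#X₃ ∣ b` with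
`a, b ≠ 0`, then `#X₂ ∣ a * b`. -/
lemma natCard_dvd_mul_of_exact {X₁ X₂ X₃ : Type*} [AddCommGroup X₁] [AddCommGroup X₂]
    [AddCommGroup X₃] (f : X₁ →+ X₂) (g : X₂ →+ X₃)
    (hex : ∀ x, g x = 0 → ∃ y, f y = x) {a b : ℕ} (ha : a ≠ 0) (hb : b ≠ 0)
    (h1 : Nat.card X₁ ∣ a) (h3 : Nat.card X₃ ∣ b) : Nat.card X₂ ∣ a * b := by
  have : Finite X₁ := Nat.finite_of_card_ne_zero (fun h0 => ha (by simpa [h0] using h1))
  have : Finite X₃ := Nat.finite_of_card_ne_zero (fun h0 => hb (by simpa [h0] using h3))
  have hker : Nat.card g.ker ∣ Nat.card X₁ := by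
    have hle : g.ker ≤ f.range := fun x hx => by
      obtain ⟨y, rfl⟩ := hex x hx
      exact ⟨y, rfl⟩
    have : Finite f.range := Set.finite_range f
    exact (AddSubgroup.card_dvd_of_le hle).trans
      (AddSubgroup.card_dvd_of_surjective f.rangeRestrict f.rangeRestrict_surjective)
  have hquot : Nat.card (X₂ ⧸ g.ker) ∣ Nat.card X₃ := by
    rw [Nat.card_congr (QuotientAddGroup.quotientKerEquivRange g).toEquiv]
    exact AddSubgroup.card_addSubgroup_dvd_card _
  rw [AddSubgroup.card_eq_card_quotient_mul_card_addSubgroup g.ker, mul_comm a b]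
  exact mul_dvd_mul (hquot.trans h3) (hker.trans h1)

/-- Linear version of `natCard_dvd_mul_of_exact`. -/
lemma natCard_dvd_mul_of_exact_linear {R : Type*} [Ring R] {X₁ X₂ X₃ : Type*} [AddCommGroup X₁]
    [AddCommGroup X₂] [AddCommGroup X₃] [Module R X₁] [Module R X₂] [Module R X₃]
    (f : X₁ →ₗ[R] X₂) (g : X₂ →ₗ[R] X₃)
    (hex : ∀ x, g x = 0 → ∃ y, f y = x) {a b : ℕ} (ha : a ≠ 0) (hb : b ≠ 0)
    (h1 : Nat.card X₁ ∣ a) (h3 : Nat.card X₃ ∣ b) : Nat.card X₂ ∣ a * b :=
  natCard_dvd_mul_of_exact f.toAddMonoidHom g.toAddMonoidHom hex ha hb h1 h3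

/-- `p`-group step in degree 2. -/
theorem natCard_H2_dvd_of_pgroup (hcs : CardSmulStatement k) (hir : InfRes2Statement k)
    {G : Type u} [Group G] (A : Rep k G)
    (h1 : ∀ H : Subgroup G, Limits.IsZero (groupCohomology (res H.subtype A) 1))
    (h2 : ∀ (H : Subgroup G) (N : Subgroup H) [N.Normal], (Nat.card (H ⧸ N)).Prime →
      Nat.card (groupCohomology ((res H.subtype A).quotientToInvariants N) 2) ∣
        Nat.card (H ⧸ N))
    {p : ℕ} (hp : p.Prime) :
    ∀ (n : ℕ) (P : Subgroup G), Nat.card P = p ^ n →
      Nat.card (groupCohomology (res P.subtype A) 2) ∣ Nat.card P := by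
  intro n
  induction n with
  | zero =>
    intro P hP
    rw [pow_zero] at hP
    have := subsingleton_of_card_eq_one hcs hP (res P.subtype A) 2 (Or.inr rfl)
    rw [Nat.card_unique]
    exact one_dvd _
  | succ n ih =>
    intro P hP
    obtain ⟨N, hNn, hN, hq⟩ := exists_normal_index_prime hp hP
    have hX1 : Nat.card (groupCohomology ((res P.subtype A).quotientToInvariants N) 2) ∣ p := by
      have := h2 P N (by rw [hq]; exact hp)
      rwa [hq] at this
    have hcardN' : Nat.card (N.map P.subtype) = p ^ n := by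
      rw [Subgroup.card_map_of_injective P.subtype_injective]; exact hN
    have hX3 : Nat.card (groupCohomology (res N.subtype (res P.subtype A)) 2) ∣ p ^ n := by
      rw [Nat.card_congr (resResIso A P N 2).toLinearEquiv.toEquiv, ← hcardN']
      exact ih (N.map P.subtype) hcardN'
    have hN1 : Limits.IsZero (groupCohomology (res N.subtype (res P.subtype A)) 1) :=
      (h1 (N.map P.subtype)).of_iso (resResIso A P N 1)
    have hex : ∀ x : groupCohomology (res P.subtype A) 2,
        (map N.subtype (𝟙 (res N.subtype (res P.subtype A))) 2).hom x = 0 →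
        ∃ y : groupCohomology ((res P.subtype A).quotientToInvariants N) 2,
          (map (QuotientGroup.mk' N)
            (ofHom <| (res P.subtype A).ρ.quotientToInvariants_lift N) 2).hom y = x :=
      hir P (res P.subtype A) N hN1
    have key := natCard_dvd_mul_of_exact_linear (R := k)
      (X₁ := groupCohomology ((res P.subtype A).quotientToInvariants N) 2)
      (X₂ := groupCohomology (res P.subtype A) 2)
      (X₃ := groupCohomology (res N.subtype (res P.subtype A)) 2) _ _
      hex hp.ne_zero (pow_ne_zero n hp.ne_zero) hX1 hX3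
    rw [hP, pow_succ, mul_comm]
    exact key

/-- **C1-d (degree 2)**, from the C1-b / C1-c statements. -/
theorem natCard_H2_dvd_card_of_prime_layers_of (hcs : CardSmulStatement k)
    (hsc : SylowCardStatement k) (hir : InfRes2Statement k)
    {G : Type u} [Group G] [Finite G] (A : Rep k G)
    (h1 : ∀ H : Subgroup G, Limits.IsZero (groupCohomology (res H.subtype A) 1))
    (h2 : ∀ (H : Subgroup G) (N : Subgroup H) [N.Normal], (Nat.card (H ⧸ N)).Prime →
      Nat.card (groupCohomology ((res H.subtype A).quotientToInvariants N) 2) ∣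
        Nat.card (H ⧸ N)) :
    Nat.card (groupCohomology A 2) ∣ Nat.card G := by
  refine hsc G A 2 (Or.inr rfl) (fun p hp => ?_)
  have : Fact p.Prime := ⟨hp⟩
  obtain ⟨P⟩ : Nonempty (Sylow p G) := inferInstance
  exact ⟨P, P.not_dvd_index,
    natCard_H2_dvd_of_pgroup hcs hir A h1 h2 hp _ P P.card_eq_multiplicity⟩

end Fermat.Agent.S55.H45
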