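/-
S55 (Poitou–Tate), package C8, export (B4), leaf (J-DETECT) — helper45 (task 563).

`jDetectStatement : H29.JDetectStatement` (verbatim): a class of `H²(Gal(K/k), J_K)` all of whose
local invariants `H29.jinv k K v` (computed at the ONE chosen place `v.ext K` above each finite
place `v` of `k`) vanish is zero.

Route.
* `semiLocalDetect_of` : Shapiro detection (`H71.detect_all`) for the semi-local module
  `(K ⊗ ℚ_q)ˣ` and an ARBITRARY system of representatives `r : I → (K →+* Ω)` of the double
  orbits `Gal(Ω/ℚ_q) \ (K →+* Ω) / Gal(K/k)`.  (helper31's gluing / separation lemmas are stated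
  for the chosen representatives `DblOrbit.emb`; their proofs only use the two properties
  `Covers` and `Separated` below.)
* `covers_ext`, `separated_ext` : the chosen embeddings `v.ext K`, `v` running over the places
  of `k` above `q`, form such a system (`K / k` normal).
* `locCohMap_eq_zero_of_map_eq_zero` : the bridge between the two presentations of the
  localisation at an embedding (`locGalToGlobal` / `locExt` used by `H29.jinvAt`; decomposition
  group / `locField` used by D4).
* injectivity of `H66.inv` (C3, `H37.inv_locExt_injective`) and D4 (`H39.ideleDetectStatement`).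
-/
import Fermat.Agent.S55.H29.C8Cls
import Fermat.Agent.S55.H39.IdeleFinal
import Fermat.Agent.S55.H37.CycLoc

set_option autoImplicit false
set_option linter.unusedSectionVars false
set_option linter.unusedVariables false

open CategoryTheory

noncomputable section

namespace Fermat.Agent.S55.H45

open Fermat.Agent.S55 Fermat.Agent.S55.H88

/-- Abstract functoriality square for `groupCohomology.map`: two composites of two maps agree
when the composite group homomorphisms agree and the composite coefficient maps agree. -/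
theorem map_two_eq_map_two {R : Type} [CommRing R] {G₁ G₂ G₃ H : Type} [Group G₁] [Group G₂]
    [Group G₃] [Group H]
    {A₁ : Rep.{0} R G₁} {A₂ : Rep.{0} R G₂} {A₃ : Rep.{0} R G₃} {B : Rep.{0} R H}
    (f₁ : G₂ →* G₁) (φ₁ : Rep.res f₁ A₁ ⟶ A₂) (f₂ : G₃ →* G₂) (φ₂ : Rep.res f₂ A₂ ⟶ A₃)
    (g₁ : H →* G₁) (ψ₁ : Rep.res g₁ A₁ ⟶ B) (g₂ : G₃ →* H) (ψ₂ : Rep.res g₂ B ⟶ A₃)
    (hf : f₁.comp f₂ = g₁.comp g₂)
    (hφ : φ₂.hom.toLinearMap ∘ₗ φ₁.hom.toLinearMap =
      ψ₂.hom.toLinearMap ∘ₗ ψ₁.hom.toLinearMap)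
    (n : ℕ) (x : groupCohomology A₁ n) :
    (groupCohomology.map f₂ φ₂ n).hom ((groupCohomology.map f₁ φ₁ n).hom x) =
    (groupCohomology.map g₂ ψ₂ n).hom ((groupCohomology.map g₁ ψ₁ n).hom x) := by
  have e1 := groupCohomology.map_comp f₁ f₂ φ₁ φ₂ n
  have e3 := groupCohomology.map_comp g₁ g₂ ψ₁ ψ₂ n
  have e4 := groupCohomology.map_congr (A := A₁) (B := A₃) hf
    (φ := (Rep.resFunctor f₂).map φ₁ ≫ φ₂)
    (ψ := (Rep.resFunctor g₂).map ψ₁ ≫ ψ₂) hφ n
  rw [e1, e3] at e4
  have := congrArg (fun m => m.hom x) e4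
  exact this

/-! ### Shapiro detection for an arbitrary system of representatives -/

section Section

variable (q : ℕ) [Fact q.Prime] (k K : Type) [Field k] [Field K] [Algebra k K]
  {I : Type} (r : I → (K →+* PadicAlgCl q))

/-- The family `r` meets every double orbit `Gal(Ω/ℚ_q) \ (K →+* Ω) / Gal(K/k)`. -/
def Covers : Prop :=
  ∀ τ : K →+* PadicAlgCl q, ∃ (i : I) (g : PadicAlgCl q ≃ₐ[ℚ_[q]] PadicAlgCl q)
    (x : K ≃ₐ[k] K), ∀ y : K, τ y = g (r i (x y))

/-- The family `r` meets every double orbit at most once. -/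
def Separated : Prop :=
  ∀ (i j : I) (g : PadicAlgCl q ≃ₐ[ℚ_[q]] PadicAlgCl q) (x : K ≃ₐ[k] K),
    (∀ y : K, r j y = g (r i (x y))) → i = j

variable {q k K r}

/-- Gluing for the semi-local algebra along a system of representatives. -/
theorem exists_semiLocal_glue_of (hc : Covers q k K r) (hs : Separated q k K r)
    (F : I → (K ≃ₐ[k] K) → PadicAlgCl q)
    (hmem : ∀ i x, F i x ∈ locField q (r i))
    (hF : ∀ (i : I) (d : decompGroup q k (r i)) (x : K ≃ₐ[k] K),
      F i ((d : K ≃ₐ[k] K) * x) = decompLift q k (r i) d (F i x)) :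
    ∃ a : semiLocal q K, ∀ (i : I) (x : K ≃ₐ[k] K),
      (a : (K →+* PadicAlgCl q) → PadicAlgCl q) ((r i).comp ((x : K ≃+* K) : K →+* K))
        = F i x := by
  choose ii gg xx hgx using hc
  have key : ∀ (i : I) (τ : K →+* PadicAlgCl q)
      (g : PadicAlgCl q ≃ₐ[ℚ_[q]] PadicAlgCl q) (x : K ≃ₐ[k] K),
      (∀ y : K, τ y = g (r i (x y))) →
        gg τ (F (ii τ) (xx τ)) = g (F i x) := by
    intro i τ g x h
    have hi : i = ii τ := by
      refine hs i (ii τ) ((gg τ)⁻¹ * g) (x * (xx τ)⁻¹) (fun y => ?_)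
      have h1 := (hgx τ ((xx τ)⁻¹ y)).symm.trans (h ((xx τ)⁻¹ y))
      rw [show (xx τ) ((xx τ)⁻¹ y) = y from (xx τ).apply_symm_apply y] at h1
      show r (ii τ) y = (gg τ)⁻¹ (g (r i (x ((xx τ)⁻¹ y))))
      rw [← h1]
      exact ((gg τ).symm_apply_apply _).symm
    subst hi
    exact H31.semiLocal_glue_wd q k K _ (F _) (hmem _) (hF _) (gg τ) g (xx τ) x
      (fun y => (hgx τ y).symm.trans (h y))
  refine ⟨⟨fun τ => gg τ (F (ii τ) (xx τ)), ?_⟩, ?_⟩
  · intro g τ
    exact key (ii τ) _ (g * gg τ) (xx τ) (fun y => congrArg g (hgx τ y))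
  · intro i x
    exact key i _ 1 x (fun y => rfl)

/-- Separation for the semi-local algebra along a family meeting every double orbit. -/
theorem semiLocal_ext_of (hc : Covers q k K r) (a b : semiLocal q K)
    (h : ∀ (i : I) (x : K ≃ₐ[k] K),
      (a : (K →+* PadicAlgCl q) → PadicAlgCl q) ((r i).comp ((x : K ≃+* K) : K →+* K))
        = (b : (K →+* PadicAlgCl q) → PadicAlgCl q) ((r i).comp ((x : K ≃+* K) : K →+* K))) :
    a = b := by
  refine Subtype.ext (funext fun τ => ?_)
  obtain ⟨i, g, x, hgx⟩ := hc τ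
  have hτ : τ = (g : PadicAlgCl q →+* PadicAlgCl q).comp
      ((r i).comp ((x : K ≃+* K) : K →+* K)) := RingHom.ext hgx
  rw [hτ, a.2 g, b.2 g, h]

/-- Gluing of semi-local units along a system of representatives. -/
theorem exists_semiLocalUnit_glue_of (hc : Covers q k K r) (hs : Separated q k K r)
    (F : ∀ i : I, (K ≃ₐ[k] K) → (locField q (r i))ˣ)
    (hF : ∀ (i : I) (d : decompGroup q k (r i)) (x : K ≃ₐ[k] K),
      F i ((d : K ≃ₐ[k] K) * x) = d • F i x) :
    ∃ u : (semiLocal q K)ˣ, ∀ (i : I) (x : K ≃ₐ[k] K),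
      ((u : semiLocal q K) : (K →+* PadicAlgCl q) → PadicAlgCl q)
        ((r i).comp ((x : K ≃+* K) : K →+* K))
        = ((F i x : locField q (r i)) : PadicAlgCl q) := by
  obtain ⟨a, ha⟩ := exists_semiLocal_glue_of hc hs
    (fun i x => ((F i x : locField q (r i)) : PadicAlgCl q))
    (fun i x => (F i x : locField q (r i)).2)
    (fun i d x => by rw [hF i d x]; rfl)
  obtain ⟨a', ha'⟩ := exists_semiLocal_glue_of hc hs
    (fun i x => ((((F i x)⁻¹ : (locField q (r i))ˣ) : locField q (r i)) : PadicAlgCl q))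
    (fun i x => (((F i x)⁻¹ : (locField q (r i))ˣ) : locField q (r i)).2)
    (fun i d x => by rw [hF i d x, ← smul_inv']; rfl)
  have h1 : a * a' = 1 := by
    apply semiLocal_ext_of hc
    intro i x
    show (a : (K →+* PadicAlgCl q) → PadicAlgCl q) _ *
      (a' : (K →+* PadicAlgCl q) → PadicAlgCl q) _ = 1
    rw [ha, ha']
    exact congrArg (fun z : locField q (r i) => (z : PadicAlgCl q)) (F i x).mul_inv
  exact ⟨⟨a, a', h1, by rw [mul_comm]; exact h1⟩, ha⟩

/-- `hsep` of `H71.detect_all` for `(K ⊗ ℚ_q)ˣ` and the family `r`. -/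
theorem semiLocalRep_sep_of (hc : Covers q k K r) (a : semiLocalRep q k K)
    (h : ∀ (i : I) (x : K ≃ₐ[k] K),
      (semiLocalToLoc q k (r i)).hom ((semiLocalRep q k K).ρ x a) = 0) : a = 0 := by
  have h1 : (Additive.toMul (a : Additive (semiLocal q K)ˣ) : (semiLocal q K)ˣ) = 1 := by
    apply Units.ext
    apply semiLocal_ext_of hc
    intro i x
    exact congrArg (fun z : Additive (locField q (r i))ˣ =>
      (((Additive.toMul z : (locField q (r i))ˣ) : locField q (r i)) : PadicAlgCl q)) (h i x)
  exact h1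

/-- `hglue` of `H71.detect_all` for `(K ⊗ ℚ_q)ˣ` and the family `r`. -/
theorem semiLocalRep_glue_of (hc : Covers q k K r) (hs : Separated q k K r)
    (f : ∀ i : I, (K ≃ₐ[k] K) → locUnitsRep q k (r i))
    (hf : ∀ (i : I) (d : decompGroup q k (r i)) (x : K ≃ₐ[k] K),
      f i ((d : K ≃ₐ[k] K) * x) = (locUnitsRep q k (r i)).ρ d (f i x)) :
    ∃ a : semiLocalRep q k K, ∀ (i : I) (x : K ≃ₐ[k] K),
      (semiLocalToLoc q k (r i)).hom ((semiLocalRep q k K).ρ x a) = f i x := by
  obtain ⟨u, hu⟩ := exists_semiLocalUnit_glue_of hc hs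
    (fun i x => (Additive.toMul (f i x : Additive (locField q (r i))ˣ) : (locField q (r i))ˣ))
    (fun i d x => congrArg Additive.toMul (hf i d x))
  refine ⟨(Additive.ofMul u : Additive (semiLocal q K)ˣ), fun i x => ?_⟩
  have h1 : (Additive.toMul ((semiLocalToLoc q k (r i)).hom
      ((semiLocalRep q k K).ρ x (Additive.ofMul u : Additive (semiLocal q K)ˣ)) :
        Additive (locField q (r i))ˣ) : (locField q (r i))ˣ)
      = Additive.toMul (f i x : Additive (locField q (r i))ˣ) :=
    Units.ext (Subtype.ext (hu i x))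
  exact h1

/-- **Shapiro detection along a system of representatives**: a class of
`Hⁿ(Gal(K/k), (K ⊗ ℚ_q)ˣ)` whose localisations at the embeddings `r i` vanish is zero. -/
theorem semiLocalDetect_of [Finite I] (hc : Covers q k K r) (hs : Separated q k K r) (n : ℕ)
    (x : groupCohomology (semiLocalRep q k K) n)
    (hx : ∀ i, (locCohMap q k (r i) n).hom x = 0) : x = 0 :=
  H71.detect_all (semiLocalRep q k K) (fun i : I => decompGroup q k (r i))
    (fun i => locUnitsRep q k (r i)) (fun i => semiLocalToLoc q k (r i))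
    (semiLocalRep_sep_of hc) (semiLocalRep_glue_of hc hs) n x hx

end Section

/-! ### The chosen embeddings `v.ext K` form a system of representatives -/

section Ext

attribute [local instance] factOfPrimes

variable (k K : Type) [Field k] [Field K] [Algebra k K] [Normal k K] (q : Nat.Primes)

/-- The chosen embedding of `K` above the place `v` of `k` above `q`. -/
def extFam (v : PlaceAbove (q : ℕ) k) : K →+* PadicAlgCl (q : ℕ) :=
  FinPlace.ext K (⟨q, v⟩ : FinPlace k)

theorem extFam_comp (v : PlaceAbove (q : ℕ) k) :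
    (extFam k K q v).comp (algebraMap k K) = v.emb :=
  FinPlace.ext_comp K (⟨q, v⟩ : FinPlace k)

theorem covers_ext : Covers (q : ℕ) k K (extFam k K q) := by
  intro τ
  obtain ⟨g, hg⟩ : ∃ g : PadicAlgCl (q : ℕ) ≃ₐ[ℚ_[(q : ℕ)]] PadicAlgCl (q : ℕ),
      τ.comp (algebraMap k K) = (g : PadicAlgCl (q : ℕ) →+* PadicAlgCl (q : ℕ)).comp
        (placeOf (q : ℕ) (τ.comp (algebraMap k K))).emb :=
    Quotient.mk_out (s := placeSetoid (q : ℕ) k) (τ.comp (algebraMap k K))
  set v := placeOf (q : ℕ) (τ.comp (algebraMap k K)) with hv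
  have h : ((g : PadicAlgCl (q : ℕ) →+* PadicAlgCl (q : ℕ)).comp (extFam k K q v)).comp
      (algebraMap k K) = τ.comp (algebraMap k K) := by
    rw [RingHom.comp_assoc, extFam_comp, hg]
  obtain ⟨σ, hσ⟩ := exists_algEquiv_comp_eq (q : ℕ) _ τ h
  exact ⟨v, g, σ, fun y => RingHom.congr_fun hσ y⟩

theorem separated_ext : Separated (q : ℕ) k K (extFam k K q) := by
  intro i j g x h
  have h1 : (placeSetoid (q : ℕ) k).r i.emb j.emb := by
    refine ⟨g, RingHom.ext fun c => ?_⟩
    have h2 := h (algebraMap k K c)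
    rw [AlgEquiv.commutes] at h2
    have h3 : extFam k K q j (algebraMap k K c) = j.emb c :=
      RingHom.congr_fun (extFam_comp k K q j) c
    have h4 : extFam k K q i (algebraMap k K c) = i.emb c :=
      RingHom.congr_fun (extFam_comp k K q i) c
    rw [h3, h4] at h2
    exact h2
  have h5 : placeOf (q : ℕ) i.emb = placeOf (q : ℕ) j.emb := Quotient.sound h1
  have h6 : ∀ w : PlaceAbove (q : ℕ) k, placeOf (q : ℕ) w.emb = w := fun w => Quotient.out_eq w
  rw [h6, h6] at h5
  exact h5

theorem finite_placeAbove [NumberField k] : Finite (PlaceAbove (q : ℕ) k) := by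
  have : Finite (k →+* PadicAlgCl (q : ℕ)) :=
    Finite.of_equiv (k →ₐ[ℚ] PadicAlgCl (q : ℕ)) (RingHom.equivRatAlgHom k (PadicAlgCl (q : ℕ))).symm
  exact Quotient.finite _

end Ext

/-! ### The bridge between the two presentations of the localisation -/

section Bridge

variable (q : ℕ) [Fact q.Prime] (k : Type) {K : Type} [Field k] [Field K] [Algebra k K]
  (τ' : K →+* PadicAlgCl q)

/-- The identity `K_w → K_w`, from C3's presentation `locExt` to C5's presentation `locField`. -/
def extToLocField : locExt q k τ' →+* locField q τ' where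
  toFun z := ⟨z.1, (mem_locExt_iff q k τ').1 z.2⟩
  map_one' := rfl
  map_mul' _ _ := rfl
  map_zero' := rfl
  map_add' _ _ := rfl

/-- `K_wˣ` from C3's presentation to C5's presentation, as a morphism of representations of the
decomposition group. -/
def unitsExtToLoc :
    Rep.res (H31.decompToGal q k τ') (Rep.ofAlgebraAutOnUnits (locBase q k τ') (locExt q k τ')) ⟶
      locUnitsRep q k τ' :=
  Rep.ofHom ⟨(MonoidHom.toAdditive
      (Units.map (extToLocField q k τ' : locExt q k τ' →* locField q τ'))).toIntLinearMap,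
    fun σ => LinearMap.ext fun u => congrArg Additive.ofMul (Units.ext (Subtype.ext rfl))⟩

variable [Normal k K]

/-- The decomposition group maps to `Gal(K/k)` through `Gal(K_w/k_v)`. -/
theorem locGalToGlobal_comp_decompToGal :
    (MonoidHom.id (K ≃ₐ[k] K)).comp (decompGroup q k τ').subtype =
      (locGalToGlobal q k τ').comp (H31.decompToGal q k τ') := by
  refine MonoidHom.ext fun σ => AlgEquiv.ext fun x => τ'.injective ?_
  have h1 := congrArg (fun z : locExt q k τ' => (z : PadicAlgCl q))
    (locGalToGlobal_spec q k τ' (H31.decompToGal q k τ' σ) x)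
  have h2 : decompLift q k τ' σ (τ' x)
      = τ' (locGalToGlobal q k τ' (H31.decompToGal q k τ' σ) x) := h1
  rw [decompLift_apply] at h2
  exact h2

end Bridge

section BridgeIdele

attribute [local instance] factOfPrimes

variable (k : Type) {K : Type} [Field k] [Field K] [Algebra k K] [Normal k K]
  (q : Nat.Primes) (τ' : K →+* PadicAlgCl (q : ℕ))

/-- **Bridge.**  If the localisation at `τ'` of an idele class in C3's presentation
(`locGalToGlobal`, `H29.ideleToLoc`) vanishes, then so does its localisation in C5's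
presentation (`ideleProj`, `locCohMap`). -/
theorem locCohMap_eq_zero_of_map_eq_zero (y : groupCohomology (ideleRep k K) 2)
    (h : (groupCohomology.map (locGalToGlobal (q : ℕ) k τ') (H29.ideleToLoc k q τ') 2).hom y = 0) :
    (locCohMap (q : ℕ) k τ' 2).hom
      ((groupCohomology.map (MonoidHom.id (K ≃ₐ[k] K)) (ideleProj k K q) 2).hom y) = 0 := by
  have key := map_two_eq_map_two (R := ℤ) (A₁ := ideleRep k K) (A₂ := semiLocalRep (q : ℕ) k K)
    (A₃ := locUnitsRep (q : ℕ) k τ')
    (B := Rep.ofAlgebraAutOnUnits (locBase (q : ℕ) k τ') (locExt (q : ℕ) k τ'))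
    (MonoidHom.id (K ≃ₐ[k] K)) (ideleProj k K q)
    (decompGroup (q : ℕ) k τ').subtype (semiLocalToLoc (q : ℕ) k τ')
    (locGalToGlobal (q : ℕ) k τ') (H29.ideleToLoc k q τ')
    (H31.decompToGal (q : ℕ) k τ') (unitsExtToLoc (q : ℕ) k τ')
    (locGalToGlobal_comp_decompToGal (q : ℕ) k τ')
    (LinearMap.ext fun x => rfl) 2 y
  rw [h, map_zero] at key
  exact key

end BridgeIdele

/-! ### (J-DETECT) -/

attribute [local instance] factOfPrimes in
/-- **(J-DETECT)**, verbatim: a class of `H²(Gal(K/k), J_K)` all of whose local invariants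
vanish is zero. -/
theorem jDetectStatement : H29.JDetectStatement := by
  intro k K _ _ _ _ _ _ y hy
  have : FiniteDimensional k K := inferInstance
  refine H39.ideleDetectStatement k K y (fun q τ => ?_)
  have : Finite (PlaceAbove (q : ℕ) k) := finite_placeAbove k q
  have hx : (groupCohomology.map (MonoidHom.id (K ≃ₐ[k] K)) (ideleProj k K q) 2).hom y = 0 := by
    refine semiLocalDetect_of (covers_ext k K q) (separated_ext k K q) 2 _ (fun v => ?_)
    refine locCohMap_eq_zero_of_map_eq_zero k q (extFam k K q v) y ?_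
    have h1 : H29.jinv k K (⟨q, v⟩ : FinPlace k) y = 0 := hy ⟨q, v⟩
    exact H37.inv_locExt_injective (q : ℕ) k (extFam k K q v) (h1.trans (map_zero _).symm)
  rw [hx, map_zero]

end Fermat.Agent.S55.H45
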