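/-
S55 (Poitou–Tate), package C3 (local fields in the `PadicAlgCl q` model), foundation leaf (F4)
= L2 (unramified extensions), part 1 (helper45): ultrametric estimates in `PadicAlgCl q`,
reduction is injective on roots of unity of order prime to `q`, the residue field of
`PadicAlgCl q`.
-/
import Mathlib
import Fermat.Prelude.Def_GaloisRep_CompletionBridge

set_option autoImplicit false

open scoped NNReal

namespace Fermat.Agent.S55.H45

variable {q : ℕ} [Fact q.Prime]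

/-! ### Ultrametric estimates -/

lemma norm_sub_le_max_padic (x y : PadicAlgCl q) : ‖x - y‖ ≤ max ‖x‖ ‖y‖ := by
  rw [sub_eq_add_neg]
  exact (IsUltrametricDist.norm_add_le_max x (-y)).trans (by rw [norm_neg])

lemma norm_sum_le_of_le {ι : Type*} (s : Finset ι) (f : ι → PadicAlgCl q) {C : ℝ} (hC : 0 ≤ C)
    (h : ∀ i ∈ s, ‖f i‖ ≤ C) : ‖∑ i ∈ s, f i‖ ≤ C := by
  classical
  induction s using Finset.induction_on with
  | empty => simpa using hC
  | insert a s ha ih =>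
    rw [Finset.sum_insert ha]
    exact (IsUltrametricDist.norm_add_le_max _ _).trans
      (max_le (h a (Finset.mem_insert_self a s))
        (ih fun i hi => h i (Finset.mem_insert_of_mem hi)))

lemma norm_natCast_padicAlgCl (m : ℕ) : ‖(m : PadicAlgCl q)‖ = ‖(m : ℚ_[q])‖ := by
  rw [← PadicAlgCl.norm_extends q (m : ℚ_[q])]
  simp

lemma norm_natCast_le_one (m : ℕ) : ‖(m : PadicAlgCl q)‖ ≤ 1 := by
  rw [norm_natCast_padicAlgCl]
  exact_mod_cast Padic.norm_int_le_one (p := q) (m : ℤ)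

lemma norm_natCast_eq_one {m : ℕ} (h : ¬ q ∣ m) : ‖(m : PadicAlgCl q)‖ = 1 := by
  rw [norm_natCast_padicAlgCl, Padic.norm_natCast_eq_one_iff]
  exact (Nat.Prime.coprime_iff_not_dvd (Fact.out : q.Prime)).mpr h

lemma norm_natCast_lt_one {m : ℕ} (h : q ∣ m) : ‖(m : PadicAlgCl q)‖ < 1 := by
  rw [norm_natCast_padicAlgCl, Padic.norm_natCast_lt_one_iff]
  exact h

lemma norm_pow_le_one {u : PadicAlgCl q} (hu : ‖u‖ ≤ 1) (n : ℕ) : ‖u ^ n‖ ≤ 1 := by
  rw [norm_pow]
  exact pow_le_one₀ (norm_nonneg _) hu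

/-- `‖uⁿ - vⁿ‖ ≤ ‖u - v‖` for integral `u, v`. -/
lemma norm_pow_sub_pow_le {u v : PadicAlgCl q} (hu : ‖u‖ ≤ 1) (hv : ‖v‖ ≤ 1) (n : ℕ) :
    ‖u ^ n - v ^ n‖ ≤ ‖u - v‖ := by
  rw [← geom_sum₂_mul, norm_mul]
  refine mul_le_of_le_one_left (norm_nonneg _) ?_
  refine norm_sum_le_of_le _ _ zero_le_one (fun i _ => ?_)
  rw [norm_mul]
  exact mul_le_one₀ (norm_pow_le_one hu i) (norm_nonneg _) (norm_pow_le_one hv _)

/-- `‖uⁿ - vⁿ‖ ≤ ‖u - v‖ · max ‖n‖ ‖u - v‖` for integral `u, v`. -/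
lemma norm_pow_sub_pow_le_mul {u v : PadicAlgCl q} (hu : ‖u‖ ≤ 1) (hv : ‖v‖ ≤ 1) (n : ℕ) :
    ‖u ^ n - v ^ n‖ ≤ ‖u - v‖ * max ‖(n : PadicAlgCl q)‖ ‖u - v‖ := by
  rw [← geom_sum₂_mul, norm_mul, mul_comm]
  refine mul_le_mul_of_nonneg_left ?_ (norm_nonneg _)
  have key : ∑ i ∈ Finset.range n, u ^ i * v ^ (n - 1 - i) =
      (n : PadicAlgCl q) * v ^ (n - 1) +
        ∑ i ∈ Finset.range n, (u ^ i - v ^ i) * v ^ (n - 1 - i) := by
    have h1 : ∀ i ∈ Finset.range n, u ^ i * v ^ (n - 1 - i) =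
        v ^ (n - 1) + (u ^ i - v ^ i) * v ^ (n - 1 - i) := by
      intro i hi
      have hi' : i < n := Finset.mem_range.mp hi
      have : v ^ (n - 1) = v ^ i * v ^ (n - 1 - i) := by
        rw [← pow_add]; congr 1; omega
      rw [this]; ring
    rw [Finset.sum_congr rfl h1, Finset.sum_add_distrib, Finset.sum_const, Finset.card_range,
      nsmul_eq_mul]
  rw [key]
  refine (IsUltrametricDist.norm_add_le_max _ _).trans (max_le_max ?_ ?_)
  · rw [norm_mul]
    exact mul_le_of_le_one_right (norm_nonneg _) (norm_pow_le_one hv _)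
  · refine norm_sum_le_of_le _ _ (norm_nonneg _) (fun i _ => ?_)
    rw [norm_mul]
    exact (mul_le_of_le_one_right (norm_nonneg _) (norm_pow_le_one hv _)).trans
      (norm_pow_sub_pow_le hu hv i)

/-! ### Roots of unity -/

lemma norm_eq_one_of_pow_eq_one {ζ : PadicAlgCl q} {m : ℕ} (hm : m ≠ 0) (h : ζ ^ m = 1) :
    ‖ζ‖ = 1 := by
  have h1 : ‖ζ‖ ^ m = 1 := by rw [← norm_pow, h, norm_one]
  exact (pow_eq_one_iff_of_nonneg (norm_nonneg _) hm).mp h1

/-- **Reduction is injective on roots of unity of order prime to `q`.** -/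
theorem eq_of_pow_eq_one_of_norm_sub_lt {ζ ζ' : PadicAlgCl q} {m : ℕ} (hm : ¬ q ∣ m)
    (h : ζ ^ m = 1) (h' : ζ' ^ m = 1) (hlt : ‖ζ - ζ'‖ < 1) : ζ = ζ' := by
  have hm0 : m ≠ 0 := fun h0 => hm (h0 ▸ dvd_zero q)
  have hζ' : ‖ζ'‖ = 1 := norm_eq_one_of_pow_eq_one hm0 h'
  have hζ'0 : ζ' ≠ 0 := fun h0 => by rw [h0, norm_zero] at hζ'; exact zero_ne_one hζ'
  by_contra hne
  set η := ζ / ζ' with hη
  have hηm : η ^ m = 1 := by rw [hη, div_pow, h, h', div_one]
  have hη1 : η ≠ 1 := fun h1 => hne (by rwa [hη, div_eq_one_iff_eq hζ'0] at h1)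
  have hηn : ‖η‖ = 1 := norm_eq_one_of_pow_eq_one hm0 hηm
  have hlt' : ‖η - 1‖ < 1 := by
    have : η - 1 = (ζ - ζ') / ζ' := by rw [hη]; field_simp
    rw [this, norm_div, hζ', div_one]; exact hlt
  have hsum : ∑ i ∈ Finset.range m, η ^ i = 0 := by
    have h1 := mul_geom_sum η m
    rw [hηm, sub_self] at h1
    exact (mul_eq_zero.mp h1).resolve_left (sub_ne_zero.mpr hη1)
  have hm1 : ‖(m : PadicAlgCl q)‖ ≤ ‖η - 1‖ := by
    have h2 : (m : PadicAlgCl q) = -∑ i ∈ Finset.range m, (η ^ i - 1 ^ i) := by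
      rw [Finset.sum_sub_distrib, hsum]
      simp
    rw [h2, norm_neg]
    refine norm_sum_le_of_le _ _ (norm_nonneg _) (fun i _ => ?_)
    exact norm_pow_sub_pow_le hηn.le (by rw [norm_one]) i
  rw [norm_natCast_eq_one hm] at hm1
  linarith

/-- Solutions of `ω ^ M = ω` with `q ∣ M` (zero and the `(M-1)`-th roots of unity) that are
congruent modulo the maximal ideal are equal. -/
theorem eq_of_pow_eq_self_of_norm_sub_lt {ω ω' : PadicAlgCl q} {M : ℕ} (hM : q ∣ M) (hM0 : M ≠ 0)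
    (h : ω ^ M = ω) (h' : ω' ^ M = ω') (hlt : ‖ω - ω'‖ < 1) : ω = ω' := by
  have hq : q.Prime := Fact.out
  have hM1 : 1 ≤ M := Nat.one_le_iff_ne_zero.mpr hM0
  have hM2 : 2 ≤ M := le_trans hq.two_le (Nat.le_of_dvd (by omega) hM)
  have hm : ¬ q ∣ (M - 1) := by
    intro hd
    have : q ∣ M - (M - 1) := Nat.dvd_sub hM hd
    rw [show M - (M - 1) = 1 by omega] at this
    exact hq.one_lt.ne' (Nat.dvd_one.mp this)
  have hm0 : M - 1 ≠ 0 := by omega
  have key : ∀ {x : PadicAlgCl q}, x ^ M = x → x ≠ 0 → x ^ (M - 1) = 1 := by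
    intro x hx hx0
    have : x ^ (M - 1) * x = 1 * x := by
      rw [← pow_succ, show M - 1 + 1 = M by omega, hx, one_mul]
    exact mul_right_cancel₀ hx0 this
  by_cases h0 : ω = 0
  · by_contra hne
    have hω'0 : ω' ≠ 0 := fun h1 => hne (by rw [h0, h1])
    have := norm_eq_one_of_pow_eq_one hm0 (key h' hω'0)
    rw [h0, zero_sub, norm_neg, this] at hlt
    exact lt_irrefl _ hlt
  · by_cases h0' : ω' = 0
    · have := norm_eq_one_of_pow_eq_one hm0 (key h h0)
      rw [h0', sub_zero, this] at hlt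
      exact absurd hlt (lt_irrefl _)
    · exact eq_of_pow_eq_one_of_norm_sub_lt hm (key h h0) (key h' h0') hlt

/-! ### The residue field of `PadicAlgCl q` -/

/-- The residue field of (the ring of integers of) `PadicAlgCl q`. -/
abbrev ResidueOmega (q : ℕ) [Fact q.Prime] : Type :=
  IsLocalRing.ResidueField (padicIntegers q)

/-- The reduction map. -/
noncomputable def redOmega (q : ℕ) [Fact q.Prime] : padicIntegers q →+* ResidueOmega q :=
  IsLocalRing.residue (padicIntegers q)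

lemma mem_padicIntegers_iff_norm {x : PadicAlgCl q} : x ∈ padicIntegers q ↔ ‖x‖ ≤ 1 := by
  rw [mem_padicIntegers_iff, ← NNReal.coe_le_coe]
  rfl

lemma norm_coe_le_one (x : padicIntegers q) : ‖(x : PadicAlgCl q)‖ ≤ 1 :=
  mem_padicIntegers_iff_norm.mp x.2

lemma isUnit_padicIntegers_iff (x : padicIntegers q) : IsUnit x ↔ ‖(x : PadicAlgCl q)‖ = 1 := by
  constructor
  · intro hu
    obtain ⟨y, hy⟩ := hu.exists_right_inv
    have h1 : (x : PadicAlgCl q) * (y : PadicAlgCl q) = 1 := congrArg Subtype.val hy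
    have h2 : ‖(x : PadicAlgCl q)‖ * ‖(y : PadicAlgCl q)‖ = 1 := by rw [← norm_mul, h1, norm_one]
    have hx := norm_coe_le_one x
    have hy' := norm_coe_le_one y
    by_contra hne
    have hlt : ‖(x : PadicAlgCl q)‖ < 1 := lt_of_le_of_ne hx hne
    have : ‖(x : PadicAlgCl q)‖ * ‖(y : PadicAlgCl q)‖ < 1 :=
      mul_lt_one_of_nonneg_of_lt_one_left (norm_nonneg _) hlt hy'
    linarith
  · intro h
    have hx0 : (x : PadicAlgCl q) ≠ 0 := by
      intro h0; rw [h0, norm_zero] at h; exact zero_ne_one h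
    have hinv : (x : PadicAlgCl q)⁻¹ ∈ padicIntegers q := by
      rw [mem_padicIntegers_iff_norm, norm_inv, h, inv_one]
    exact IsUnit.of_mul_eq_one ⟨(x : PadicAlgCl q)⁻¹, hinv⟩ (Subtype.ext (mul_inv_cancel₀ hx0))

lemma redOmega_eq_zero_iff (x : padicIntegers q) :
    redOmega q x = 0 ↔ ‖(x : PadicAlgCl q)‖ < 1 := by
  rw [redOmega, IsLocalRing.residue_eq_zero_iff, IsLocalRing.mem_maximalIdeal, mem_nonunits_iff,
    isUnit_padicIntegers_iff]
  exact ⟨fun h => lt_of_le_of_ne (norm_coe_le_one x) h, fun h => h.ne⟩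

lemma redOmega_eq_iff (x y : padicIntegers q) :
    redOmega q x = redOmega q y ↔ ‖(x : PadicAlgCl q) - y‖ < 1 := by
  rw [← sub_eq_zero, ← map_sub, redOmega_eq_zero_iff]
  rfl

instance charP_residueOmega : CharP (ResidueOmega q) q := by
  rw [CharP.charP_iff_prime_eq_zero (Fact.out : q.Prime)]
  have h1 : ((q : ℕ) : ResidueOmega q) = redOmega q (q : padicIntegers q) := by
    rw [map_natCast]
  rw [h1, redOmega_eq_zero_iff]
  have : (((q : padicIntegers q) : PadicAlgCl q)) = (q : PadicAlgCl q) := by simp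
  rw [this]
  exact norm_natCast_lt_one dvd_rfl

end Fermat.Agent.S55.H45
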