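/-
S55 (Poitou–Tate), package C3, foundation leaf (F4) = L2, part 2 (helper45): Teichmüller
representatives in a finite extension `K` of `ℚ_q` inside `PadicAlgCl q`.

* `resCard K` : the cardinality `Q` of the residue field of `K`;
* `norm_pow_resCard_sub_lt` : `‖x ^ Q - x‖ < 1` for integral `x ∈ K`;
* `exists_teich` : every integral `x ∈ K` is congruent to a solution `ω ∈ K` of `ω ^ Q = ω`;
* `mem_of_pow_resCard_eq_self` : every solution of `ω ^ Q = ω` in `PadicAlgCl q` lies in `K`
  (so `K` contains the `(Q - 1)`-th roots of unity), and there are exactly `Q` of them.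
-/
import Fermat.Agent.S55.H88.LocalInt
import Fermat.Agent.S55.H45.UnramRed

set_option autoImplicit false

open scoped NNReal
open Polynomial

namespace Fermat.Agent.S55.H45

variable {q : ℕ} [Fact q.Prime] (K : IntermediateField ℚ_[q] (PadicAlgCl q))

/-- The cardinality of the residue field of `K`. -/
noncomputable def resCard : ℕ := Nat.card (IsLocalRing.ResidueField (H88.integerRing K))

section

variable [FiniteDimensional ℚ_[q] K]

theorem exists_resCard_eq_pow : ∃ f : ℕ, 0 < f ∧ resCard K = q ^ f := by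
  haveI := H88.finite_residueField K
  haveI := H88.charP_residueField K
  letI := Fintype.ofFinite (IsLocalRing.ResidueField (H88.integerRing K))
  obtain ⟨n, -, hn⟩ := FiniteField.card (IsLocalRing.ResidueField (H88.integerRing K)) q
  exact ⟨n, n.pos, by rw [resCard, Nat.card_eq_fintype_card, hn]⟩

theorem dvd_resCard : q ∣ resCard K := by
  obtain ⟨f, hf, h⟩ := exists_resCard_eq_pow K
  rw [h]
  exact dvd_pow_self q hf.ne'

theorem resCard_ne_zero : resCard K ≠ 0 := by
  obtain ⟨f, -, h⟩ := exists_resCard_eq_pow K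
  rw [h]
  exact pow_ne_zero _ (Fact.out : q.Prime).ne_zero

theorem one_lt_resCard : 1 < resCard K := by
  obtain ⟨f, hf, h⟩ := exists_resCard_eq_pow K
  rw [h]
  exact Nat.one_lt_pow hf.ne' (Fact.out : q.Prime).one_lt

theorem norm_resCard_lt_one : ‖(resCard K : PadicAlgCl q)‖ < 1 :=
  norm_natCast_lt_one (dvd_resCard K)

/-- Fermat's little theorem in the residue field: `x ^ Q ≡ x`. -/
theorem norm_pow_resCard_sub_lt {x : K} (hx : ‖x‖ ≤ 1) : ‖x ^ resCard K - x‖ < 1 := by
  haveI := H88.finite_residueField K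
  letI := Fintype.ofFinite (IsLocalRing.ResidueField (H88.integerRing K))
  have hxO : x ∈ H88.integerRing K := (H88.mem_integerRing_iff K).mpr hx
  set x' : H88.integerRing K := ⟨x, hxO⟩ with hx'
  have h1 : IsLocalRing.residue (H88.integerRing K) (x' ^ resCard K - x') = 0 := by
    rw [map_sub, map_pow, resCard, Nat.card_eq_fintype_card, FiniteField.pow_card, sub_self]
  rw [IsLocalRing.residue_eq_zero_iff] at h1
  have h2 : ((x' ^ resCard K - x' : H88.integerRing K) : K) ∈ (H88.integerRing K).nonunits := by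
    rw [ValuationSubring.mem_nonunits_iff_exists_mem_maximalIdeal]
    exact ⟨(x' ^ resCard K - x').2, h1⟩
  exact (H88.mem_nonunits_integerRing_iff K).mp h2

omit [FiniteDimensional ℚ_[q] K] in
lemma norm_coe_eq (x : K) : ‖x‖ = ‖(x : PadicAlgCl q)‖ := rfl

/-- Successive differences of `y ^ (Q ^ n)`. -/
lemma norm_pow_pow_succ_sub_le {y : PadicAlgCl q} (hy : ‖y‖ ≤ 1) (Q : ℕ) {c : ℝ}
    (hc : c = max ‖(Q : PadicAlgCl q)‖ ‖y ^ Q - y‖) (hc1 : c ≤ 1) (n : ℕ) :
    ‖y ^ (Q ^ (n + 1)) - y ^ (Q ^ n)‖ ≤ c ^ (n + 1) := by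
  have hc0 : 0 ≤ c := by rw [hc]; exact le_max_of_le_left (norm_nonneg _)
  induction n with
  | zero =>
    rw [pow_zero, pow_one, zero_add, pow_one, pow_one, hc]
    exact le_max_right _ _
  | succ n ih =>
    have e1 : y ^ (Q ^ (n + 1 + 1)) = (y ^ (Q ^ (n + 1))) ^ Q := by rw [← pow_mul, pow_succ Q (n + 1)]
    have e2 : y ^ (Q ^ (n + 1)) = (y ^ (Q ^ n)) ^ Q := by rw [← pow_mul, pow_succ Q n]
    rw [e1]
    nth_rewrite 2 [e2]
    refine (norm_pow_sub_pow_le_mul (norm_pow_le_one hy _) (norm_pow_le_one hy _) Q).trans ?_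
    have h2 : max ‖(Q : PadicAlgCl q)‖ ‖y ^ (Q ^ (n + 1)) - y ^ (Q ^ n)‖ ≤ c := by
      refine max_le (by rw [hc]; exact le_max_left _ _) (ih.trans ?_)
      exact pow_le_of_le_one hc0 hc1 (Nat.succ_ne_zero n)
    calc _ ≤ c ^ (n + 1) * c := mul_le_mul ih h2 (le_max_of_le_left (norm_nonneg _))
          (pow_nonneg hc0 _)
      _ = c ^ (n + 1 + 1) := (pow_succ c (n + 1)).symm

lemma norm_pow_pow_sub_le {y : PadicAlgCl q} (hy : ‖y‖ ≤ 1) (Q : ℕ) {c : ℝ}
    (hc : c = max ‖(Q : PadicAlgCl q)‖ ‖y ^ Q - y‖) (hc1 : c ≤ 1) (n : ℕ) :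
    ‖y ^ (Q ^ n) - y‖ ≤ c := by
  have hc0 : 0 ≤ c := by rw [hc]; exact le_max_of_le_left (norm_nonneg _)
  induction n with
  | zero => rw [pow_zero, pow_one, sub_self, norm_zero]; exact hc0
  | succ n ih =>
    have h1 : y ^ (Q ^ (n + 1)) - y = (y ^ (Q ^ (n + 1)) - y ^ (Q ^ n)) + (y ^ (Q ^ n) - y) := by
      ring
    rw [h1]
    have h2 := norm_pow_pow_succ_sub_le hy Q hc hc1 n
    have h3 : c ^ (n + 1) ≤ c := pow_le_of_le_one hc0 hc1 (Nat.succ_ne_zero n)
    exact (IsUltrametricDist.norm_add_le_max _ _).trans (max_le (h2.trans h3) ih)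

/-- **Teichmüller representatives exist**: every integral `x ∈ K` is congruent modulo the maximal
ideal to some `ω ∈ K` with `ω ^ Q = ω`. -/
theorem exists_teich {x : K} (hx : ‖x‖ ≤ 1) :
    ∃ ω : K, ω ^ resCard K = ω ∧ ‖ω - x‖ < 1 := by
  have hcomplete : CompleteSpace K := H88.completeSpace K
  set c : ℝ := max ‖(resCard K : PadicAlgCl q)‖ ‖(x : PadicAlgCl q) ^ resCard K - x‖ with hc
  have hx' : ‖(x : PadicAlgCl q)‖ ≤ 1 := hx
  have hc0 : 0 ≤ c := le_max_of_le_left (norm_nonneg _)
  have hlt : ‖(x : PadicAlgCl q) ^ resCard K - x‖ < 1 := norm_pow_resCard_sub_lt K hx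
  have hc1 : c < 1 := max_lt (norm_resCard_lt_one K) hlt
  let a : ℕ → K := fun n => x ^ (resCard K ^ n)
  have hdiff : ∀ n, ‖a (n + 1) - a n‖ ≤ c ^ (n + 1) := fun n =>
    norm_pow_pow_succ_sub_le hx' (resCard K) hc hc1.le n
  have hsub : ∀ n, ‖a n - x‖ ≤ c := fun n => norm_pow_pow_sub_le hx' (resCard K) hc hc1.le n
  have hcau : CauchySeq a := by
    refine cauchySeq_of_le_geometric c c hc1 (fun n => ?_)
    rw [dist_comm, dist_eq_norm, ← pow_succ']
    exact hdiff n
  obtain ⟨ω, hω⟩ := cauchySeq_tendsto_of_complete hcau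
  refine ⟨ω, ?_, ?_⟩
  · have h1 : Filter.Tendsto (fun n => a (n + 1)) Filter.atTop (nhds ω) :=
      hω.comp (Filter.tendsto_add_atTop_nat 1)
    have h2 : Filter.Tendsto (fun n => a (n + 1)) Filter.atTop (nhds (ω ^ resCard K)) := by
      refine (hω.pow (resCard K)).congr (fun n => ?_)
      show (x ^ (resCard K ^ n)) ^ resCard K = x ^ (resCard K ^ (n + 1))
      rw [← pow_mul, pow_succ]
    exact tendsto_nhds_unique h2 h1
  · have h1 : Filter.Tendsto (fun n => ‖a n - x‖) Filter.atTop (nhds ‖ω - x‖) :=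
      (hω.sub_const x).norm
    exact lt_of_le_of_lt (le_of_tendsto' h1 hsub) hc1

/-- Every residue class of `K` contains a Teichmüller representative. -/
theorem exists_teich_of_residue (r : IsLocalRing.ResidueField (H88.integerRing K)) :
    ∃ ω : K, ω ^ resCard K = ω ∧ ∃ h : ω ∈ H88.integerRing K,
      IsLocalRing.residue (H88.integerRing K) ⟨ω, h⟩ = r := by
  obtain ⟨y, rfl⟩ := IsLocalRing.residue_surjective r
  have hy : ‖(y : K)‖ ≤ 1 := (H88.mem_integerRing_iff K).mp y.2
  obtain ⟨ω, hω, hlt⟩ := exists_teich K hy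
  have hω1 : ‖ω‖ ≤ 1 := by
    have h1 : (ω : PadicAlgCl q) = ((ω : PadicAlgCl q) - (y : K)) + ((y : K) : PadicAlgCl q) := by
      ring
    rw [norm_coe_eq, h1]
    exact (IsUltrametricDist.norm_add_le_max _ _).trans (max_le hlt.le hy)
  have hωO : ω ∈ H88.integerRing K := (H88.mem_integerRing_iff K).mpr hω1
  refine ⟨ω, hω, hωO, ?_⟩
  rw [← sub_eq_zero, ← map_sub, IsLocalRing.residue_eq_zero_iff]
  have h2 : ω - (y : K) ∈ (H88.integerRing K).nonunits :=
    (H88.mem_nonunits_integerRing_iff K).mpr hlt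
  rw [ValuationSubring.mem_nonunits_iff_exists_mem_maximalIdeal] at h2
  obtain ⟨h3, h4⟩ := h2
  exact h4

/-- A chosen Teichmüller representative of a residue class, as an element of `PadicAlgCl q`. -/
noncomputable def teichFun (r : IsLocalRing.ResidueField (H88.integerRing K)) : PadicAlgCl q :=
  ((Classical.choose (exists_teich_of_residue K r) : K) : PadicAlgCl q)

theorem teichFun_mem (r : IsLocalRing.ResidueField (H88.integerRing K)) : teichFun K r ∈ K :=
  (Classical.choose (exists_teich_of_residue K r)).2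

theorem teichFun_pow (r : IsLocalRing.ResidueField (H88.integerRing K)) :
    teichFun K r ^ resCard K = teichFun K r := by
  have h := (Classical.choose_spec (exists_teich_of_residue K r)).1
  exact congrArg (fun z : K => (z : PadicAlgCl q)) h

theorem teichFun_injective : Function.Injective (teichFun K) := by
  intro r s hrs
  obtain ⟨h1, h2⟩ := (Classical.choose_spec (exists_teich_of_residue K r)).2
  obtain ⟨h3, h4⟩ := (Classical.choose_spec (exists_teich_of_residue K s)).2
  have heq : Classical.choose (exists_teich_of_residue K r) =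
      Classical.choose (exists_teich_of_residue K s) := Subtype.ext hrs
  rw [← h2, ← h4]
  congr 1
  exact Subtype.ext heq

/-- **The solutions of `ω ^ Q = ω` in `PadicAlgCl q` are exactly the (chosen) Teichmüller
representatives of `K`**; in particular they lie in `K`. -/
theorem exists_teichFun_eq {ω : PadicAlgCl q} (hω : ω ^ resCard K = ω) :
    ∃ r, teichFun K r = ω := by
  classical
  haveI := H88.finite_residueField K
  letI := Fintype.ofFinite (IsLocalRing.ResidueField (H88.integerRing K))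
  have hQ := one_lt_resCard K
  set P : (PadicAlgCl q)[X] := X ^ resCard K - X with hP
  have hP0 : P ≠ 0 := FiniteField.X_pow_card_sub_X_ne_zero (PadicAlgCl q) hQ
  have hdeg : P.natDegree = resCard K := FiniteField.X_pow_card_sub_X_natDegree_eq (PadicAlgCl q) hQ
  have hroot : ∀ z : PadicAlgCl q, z ∈ P.roots.toFinset ↔ z ^ resCard K = z := by
    intro z
    rw [Multiset.mem_toFinset, mem_roots hP0, IsRoot.def, hP, eval_sub, eval_pow, eval_X,
      sub_eq_zero]
  have hsub : Finset.univ.image (teichFun K) ⊆ P.roots.toFinset := by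
    intro z hz
    obtain ⟨r, -, rfl⟩ := Finset.mem_image.mp hz
    exact (hroot _).mpr (teichFun_pow K r)
  have hcard : P.roots.toFinset.card ≤ (Finset.univ.image (teichFun K)).card := by
    rw [Finset.card_image_of_injective _ (teichFun_injective K), Finset.card_univ,
      ← Nat.card_eq_fintype_card]
    calc P.roots.toFinset.card ≤ Multiset.card P.roots := Multiset.toFinset_card_le _
      _ ≤ P.natDegree := card_roots' P
      _ = resCard K := hdeg
  have heq := Finset.eq_of_subset_of_card_le hsub hcard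
  have hmem : ω ∈ Finset.univ.image (teichFun K) := by rw [heq]; exact (hroot ω).mpr hω
  obtain ⟨r, -, hr⟩ := Finset.mem_image.mp hmem
  exact ⟨r, hr⟩

/-- Every solution of `ω ^ Q = ω` in `PadicAlgCl q` lies in `K`: `K` contains the `(Q-1)`-th
roots of unity. -/
theorem mem_of_pow_resCard_eq_self {ω : PadicAlgCl q} (hω : ω ^ resCard K = ω) : ω ∈ K := by
  obtain ⟨r, rfl⟩ := exists_teichFun_eq K hω
  exact teichFun_mem K r

/-- The number of solutions of `ω ^ Q = ω` is `Q`. -/
theorem natCard_pow_resCard_eq_self :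
    Nat.card {ω : PadicAlgCl q // ω ^ resCard K = ω} = resCard K := by
  haveI := H88.finite_residueField K
  have e : IsLocalRing.ResidueField (H88.integerRing K) ≃ {ω : PadicAlgCl q // ω ^ resCard K = ω} :=
    Equiv.ofBijective (fun r => ⟨teichFun K r, teichFun_pow K r⟩)
      ⟨fun r s h => teichFun_injective K (Subtype.mk.inj h),
        fun ω => by
          obtain ⟨r, hr⟩ := exists_teichFun_eq K ω.2
          exact ⟨r, Subtype.ext hr⟩⟩
  rw [← Nat.card_congr e]
  rfl

/-- Integral elements of `K` are congruent to a unique solution of `ω ^ Q = ω`. -/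
theorem exists_pow_eq_self_norm_sub_lt {x : K} (hx : ‖x‖ ≤ 1) :
    ∃ ω : PadicAlgCl q, ω ^ resCard K = ω ∧ ω ∈ K ∧ ‖ω - x‖ < 1 := by
  obtain ⟨ω, h1, h2⟩ := exists_teich K hx
  exact ⟨ω, congrArg (fun z : K => (z : PadicAlgCl q)) h1, ω.2, h2⟩

end

end Fermat.Agent.S55.H45
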