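/-
S55 (Poitou–Tate), package C3, foundation leaf (F4) = L2, part 4 (helper45): the Galois action
on roots of unity of order prime to `q`.

For a finite extension `K` of `ℚ_q` inside `PadicAlgCl q` with residue cardinality `Q`, every
automorphism `σ` of `PadicAlgCl q` fixing `K` acts on the solutions of `ζ ^ (Q ^ n) = ζ` as a
power of the `Q`-Frobenius: `σ ζ = ζ ^ (Q ^ i)` for some `i < n`
(`exists_pow_of_fixing`).
-/
import Fermat.Agent.S55.H45.UnramTeich
import Fermat.Agent.S55.H45.UnramFF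

set_option autoImplicit false

open scoped NNReal
open Polynomial

namespace Fermat.Agent.S55.H45

variable {q : ℕ} [Fact q.Prime]

lemma norm_le_one_of_pow_eq_self {ω : PadicAlgCl q} {M : ℕ} (hM : 2 ≤ M) (h : ω ^ M = ω) :
    ‖ω‖ ≤ 1 := by
  by_cases h0 : ω = 0
  · rw [h0, norm_zero]; exact zero_le_one
  · have h1 : ω ^ (M - 1) = 1 := by
      have : ω ^ (M - 1) * ω = 1 * ω := by
        rw [← pow_succ, show M - 1 + 1 = M by omega, h, one_mul]
      exact mul_right_cancel₀ h0 this
    exact (norm_eq_one_of_pow_eq_one (by omega) h1).le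

lemma norm_algEquiv_eq (σ : PadicAlgCl q ≃ₐ[ℚ_[q]] PadicAlgCl q) (y : PadicAlgCl q) :
    ‖σ y‖ = ‖y‖ :=
  congrArg NNReal.toReal (nnnorm_padicAlgCl_algEquiv q σ y)

variable (K : IntermediateField ℚ_[q] (PadicAlgCl q)) [FiniteDimensional ℚ_[q] K]

lemma two_le_resCard : 2 ≤ resCard K := one_lt_resCard K

lemma mem_padicIntegers_of_pow_resCard {ω : PadicAlgCl q} {n : ℕ} (hn : 0 < n)
    (hω : ω ^ (resCard K ^ n) = ω) : ω ∈ padicIntegers q :=
  mem_padicIntegers_iff_norm.mpr
    (norm_le_one_of_pow_eq_self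
      (le_trans (two_le_resCard K) (Nat.le_self_pow hn.ne' _)) hω)

/-- **The elements of the residue field of `PadicAlgCl q` fixed by `x ↦ x ^ Q` are the
reductions of the solutions of `ω ^ Q = ω`** (which lie in `K`). -/
theorem exists_lift_of_pow_resCard_eq_self {c : ResidueOmega q} (hc : c ^ resCard K = c) :
    ∃ ω : PadicAlgCl q, ω ^ resCard K = ω ∧ ∃ h : ω ∈ padicIntegers q,
      redOmega q ⟨ω, h⟩ = c := by
  classical
  haveI := H88.finite_residueField K
  letI := Fintype.ofFinite (IsLocalRing.ResidueField (H88.integerRing K))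
  have hQ := one_lt_resCard K
  have hmem : ∀ r, teichFun K r ∈ padicIntegers q := fun r =>
    mem_padicIntegers_of_pow_resCard K one_pos (by rw [pow_one]; exact teichFun_pow K r)
  set g : IsLocalRing.ResidueField (H88.integerRing K) → ResidueOmega q :=
    fun r => redOmega q ⟨teichFun K r, hmem r⟩ with hg
  have hginj : Function.Injective g := by
    intro r s hrs
    have h1 : ‖teichFun K r - teichFun K s‖ < 1 :=
      (redOmega_eq_iff (⟨teichFun K r, hmem r⟩ : padicIntegers q) ⟨teichFun K s, hmem s⟩).mp hrs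
    exact teichFun_injective K
      (eq_of_pow_eq_self_of_norm_sub_lt (dvd_resCard K) (resCard_ne_zero K)
        (teichFun_pow K r) (teichFun_pow K s) h1)
  set P : (ResidueOmega q)[X] := X ^ resCard K - X with hP
  have hP0 : P ≠ 0 := FiniteField.X_pow_card_sub_X_ne_zero (ResidueOmega q) hQ
  have hdeg : P.natDegree = resCard K :=
    FiniteField.X_pow_card_sub_X_natDegree_eq (ResidueOmega q) hQ
  have hroot : ∀ z : ResidueOmega q, z ∈ P.roots.toFinset ↔ z ^ resCard K = z := by
    intro z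
    rw [Multiset.mem_toFinset, mem_roots hP0, IsRoot.def, hP, eval_sub, eval_pow, eval_X,
      sub_eq_zero]
  have hsub : Finset.univ.image g ⊆ P.roots.toFinset := by
    intro z hz
    obtain ⟨r, -, rfl⟩ := Finset.mem_image.mp hz
    rw [hroot, hg]
    show redOmega q ⟨teichFun K r, hmem r⟩ ^ resCard K = redOmega q ⟨teichFun K r, hmem r⟩
    rw [← map_pow]
    congr 1
    exact Subtype.ext (teichFun_pow K r)
  have hcard : P.roots.toFinset.card ≤ (Finset.univ.image g).card := by
    rw [Finset.card_image_of_injective _ hginj, Finset.card_univ, ← Nat.card_eq_fintype_card]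
    calc P.roots.toFinset.card ≤ Multiset.card P.roots := Multiset.toFinset_card_le _
      _ ≤ P.natDegree := card_roots' P
      _ = resCard K := hdeg
  have heq := Finset.eq_of_subset_of_card_le hsub hcard
  have hcm : c ∈ Finset.univ.image g := by rw [heq]; exact (hroot c).mpr hc
  obtain ⟨r, -, hr⟩ := Finset.mem_image.mp hcm
  exact ⟨teichFun K r, teichFun_pow K r, hmem r, hr⟩

/-- **Galois acts through Frobenius powers on roots of unity of order prime to `q`.** -/
theorem exists_pow_of_fixing (σ : PadicAlgCl q ≃ₐ[ℚ_[q]] PadicAlgCl q)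
    (hσ : ∀ x ∈ K, σ x = x) {n : ℕ} (hn : 0 < n) {ζ : PadicAlgCl q}
    (hζ : ζ ^ (resCard K ^ n) = ζ) :
    ∃ i < n, σ ζ = ζ ^ (resCard K ^ i) := by
  obtain ⟨f, hf, hQ⟩ := exists_resCard_eq_pow K
  have hζO : ζ ∈ padicIntegers q := mem_padicIntegers_of_pow_resCard K hn hζ
  set ζ' : padicIntegers q := ⟨ζ, hζO⟩ with hζ'
  set z : ResidueOmega q := redOmega q ζ' with hz
  have hzpow : z ^ (resCard K ^ n) = z := by
    rw [hz, ← map_pow]
    congr 1
    exact Subtype.ext hζ
  set P : (ResidueOmega q)[X] := frobOrbitPoly z (resCard K) n with hP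
  have hcoeff : ∀ j, P.coeff j ^ resCard K = P.coeff j := by
    intro j
    have h1 := coeff_frobOrbitPoly_pow (q := q) z f n (by rw [← hQ]; exact hzpow) j
    rw [← hQ] at h1
    exact h1
  choose a ha using fun j => exists_lift_of_pow_resCard_eq_self K (hcoeff j)
  have haO : ∀ j, a j ∈ padicIntegers q := fun j => (ha j).2.1
  have hared : ∀ j, redOmega q ⟨a j, haO j⟩ = P.coeff j := fun j => (ha j).2.2
  have haK : ∀ j, a j ∈ K := fun j => mem_of_pow_resCard_eq_self K (ha j).1
  -- the lifted polynomial, evaluated at integral points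
  have hPdeg : P.natDegree < n + 1 := by
    rw [hP, frobOrbitPoly_natDegree]; exact Nat.lt_succ_self n
  have key : ∀ x : padicIntegers q,
      redOmega q (∑ j ∈ Finset.range (n + 1), (⟨a j, haO j⟩ : padicIntegers q) * x ^ j) =
        P.eval (redOmega q x) := by
    intro x
    rw [eval_eq_sum_range' hPdeg, map_sum]
    refine Finset.sum_congr rfl (fun j _ => ?_)
    rw [map_mul, map_pow, hared]
  have hcoe : ∀ x : padicIntegers q,
      ((∑ j ∈ Finset.range (n + 1), (⟨a j, haO j⟩ : padicIntegers q) * x ^ j :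
        padicIntegers q) : PadicAlgCl q) =
        ∑ j ∈ Finset.range (n + 1), a j * (x : PadicAlgCl q) ^ j := by
    intro x
    rw [← ValuationSubring.subtype_apply, map_sum]
    refine Finset.sum_congr rfl (fun j _ => ?_)
    rw [map_mul, map_pow]
    rfl
  -- `ζ` is a root modulo the maximal ideal
  have h1 : ‖∑ j ∈ Finset.range (n + 1), a j * ζ ^ j‖ < 1 := by
    have h2 := key ζ'
    have h3 : P.eval z = 0 :=
      (eval_frobOrbitPoly_eq_zero_iff z (resCard K) n z).mpr ⟨0, hn, by rw [pow_zero, pow_one]⟩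
    rw [← hz, h3, redOmega_eq_zero_iff, hcoe] at h2
    exact h2
  -- apply `σ`
  have hσζO : σ ζ ∈ padicIntegers q := by
    rw [mem_padicIntegers_iff_norm, norm_algEquiv_eq]
    exact mem_padicIntegers_iff_norm.mp hζO
  have h4 : ‖∑ j ∈ Finset.range (n + 1), a j * (σ ζ) ^ j‖ < 1 := by
    have h5 : ∑ j ∈ Finset.range (n + 1), a j * (σ ζ) ^ j =
        σ (∑ j ∈ Finset.range (n + 1), a j * ζ ^ j) := by
      rw [map_sum]
      refine Finset.sum_congr rfl (fun j _ => ?_)
      rw [map_mul, map_pow, hσ _ (haK j)]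
    rw [h5, norm_algEquiv_eq]
    exact h1
  have h6 : P.eval (redOmega q ⟨σ ζ, hσζO⟩) = 0 := by
    rw [← key, redOmega_eq_zero_iff, hcoe]
    exact h4
  obtain ⟨i, hi, h7⟩ := (eval_frobOrbitPoly_eq_zero_iff z (resCard K) n _).mp h6
  refine ⟨i, hi, ?_⟩
  have h8 : ‖σ ζ - ζ ^ (resCard K ^ i)‖ < 1 := by
    have h9 : redOmega q ⟨σ ζ, hσζO⟩ = redOmega q (ζ' ^ (resCard K ^ i)) :=
      h7.trans (map_pow (redOmega q) ζ' (resCard K ^ i)).symm
    exact (redOmega_eq_iff (⟨σ ζ, hσζO⟩ : padicIntegers q) (ζ' ^ (resCard K ^ i))).mp h9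
  have hMdvd : q ∣ resCard K ^ n := dvd_pow (dvd_resCard K) hn.ne'
  have hM0 : resCard K ^ n ≠ 0 := pow_ne_zero _ (resCard_ne_zero K)
  refine eq_of_pow_eq_self_of_norm_sub_lt hMdvd hM0 ?_ ?_ h8
  · rw [← map_pow, hζ]
  · rw [← pow_mul, mul_comm, pow_mul, hζ]

end Fermat.Agent.S55.H45
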