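/-
S55 (Poitou–Tate), package C3, foundation leaf (F4) = L2, part 5 (helper45): the max-norm
formula for `K(ζ)`, `ζ` of order `Q ^ n - 1`.

For a finite extension `K` of `ℚ_q` inside `PadicAlgCl q` with residue cardinality `Q` and `ζ`
of multiplicative order `Q ^ n - 1`:
* `orderOf_redOmega` : the reduction of a root of unity of order prime to `q` has the same order;
* `norm_lt_one_of_norm_sum_lt` : if `b i ∈ K`, `‖b i‖ ≤ 1` and `‖∑_{i<n} b i ζ^i‖ < 1` then all
  `‖b i‖ < 1`;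
* `exists_norm_sum_eq` : `‖∑_{i<n} a i ζ^i‖ = max ‖a i‖` for `a i ∈ K`.
-/
import Fermat.Agent.S55.H45.UnramGal

set_option autoImplicit false

open scoped NNReal
open Polynomial

namespace Fermat.Agent.S55.H45

variable {q : ℕ} [Fact q.Prime]

/-- The reduction of a root of unity of order prime to `q` has the same order. -/
theorem orderOf_redOmega {m : ℕ} (hm : ¬ q ∣ m) {ζ : PadicAlgCl q} (hζ : orderOf ζ = m)
    (hζO : ζ ∈ padicIntegers q) : orderOf (redOmega q ⟨ζ, hζO⟩) = m := by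
  have hm0 : m ≠ 0 := fun h0 => hm (h0 ▸ dvd_zero q)
  have hζm : ζ ^ m = 1 := by rw [← hζ]; exact pow_orderOf_eq_one ζ
  rw [orderOf_eq_iff (Nat.pos_of_ne_zero hm0)]
  refine ⟨?_, ?_⟩
  · rw [← map_pow]
    have : (⟨ζ, hζO⟩ : padicIntegers q) ^ m = 1 := Subtype.ext hζm
    rw [this, map_one]
  · intro k hk hk0 h1
    rw [← map_pow, ← map_one (redOmega q)] at h1
    have h2 := (redOmega_eq_iff ((⟨ζ, hζO⟩ : padicIntegers q) ^ k) 1).mp h1
    have h3 : ζ ^ k = 1 := by
      refine eq_of_pow_eq_one_of_norm_sub_lt hm ?_ (one_pow m) ?_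
      · rw [← pow_mul, mul_comm, pow_mul, hζm, one_pow]
      · exact h2
    have h4 : m ∣ k := by rw [← hζ]; exact orderOf_dvd_of_pow_eq_one h3
    exact absurd (Nat.le_of_dvd hk0 h4) (not_le.mpr hk)

variable (K : IntermediateField ℚ_[q] (PadicAlgCl q)) [FiniteDimensional ℚ_[q] K]

/-- **Residual independence of the powers of `ζ`.** -/
theorem norm_lt_one_of_norm_sum_lt {n : ℕ} (hn : 0 < n) {ζ : PadicAlgCl q}
    (hζ : orderOf ζ = resCard K ^ n - 1) (b : ℕ → PadicAlgCl q) (hbK : ∀ i < n, b i ∈ K)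
    (hb : ∀ i < n, ‖b i‖ ≤ 1) (h : ‖∑ i ∈ Finset.range n, b i * ζ ^ i‖ < 1) :
    ∀ i < n, ‖b i‖ < 1 := by
  have hq : q.Prime := Fact.out
  obtain ⟨f, hf, hQ⟩ := exists_resCard_eq_pow K
  have hQ2 : 2 ≤ resCard K := two_le_resCard K
  have hQn : 2 ≤ resCard K ^ n := le_trans hQ2 (Nat.le_self_pow hn.ne' _)
  have hm : ¬ q ∣ resCard K ^ n - 1 := by
    intro hdvd
    have h1 : q ∣ resCard K ^ n := dvd_pow (dvd_resCard K) hn.ne'
    have h2 : q ∣ resCard K ^ n - (resCard K ^ n - 1) := Nat.dvd_sub h1 hdvd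
    have h3 : resCard K ^ n - (resCard K ^ n - 1) = 1 := by omega
    rw [h3] at h2
    exact hq.one_lt.ne' (Nat.dvd_one.mp h2)
  have hm0 : resCard K ^ n - 1 ≠ 0 := by omega
  have hζm : ζ ^ (resCard K ^ n - 1) = 1 := by rw [← hζ]; exact pow_orderOf_eq_one ζ
  have hζn : ‖ζ‖ = 1 := norm_eq_one_of_pow_eq_one hm0 hζm
  have hζO : ζ ∈ padicIntegers q := mem_padicIntegers_iff_norm.mpr hζn.le
  have hz := orderOf_redOmega hm hζ hζO
  -- truncated coefficients
  set b' : ℕ → PadicAlgCl q := fun i => if i < n then b i else 0 with hb'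
  have hb'O : ∀ i, b' i ∈ padicIntegers q := by
    intro i
    rw [mem_padicIntegers_iff_norm, hb']
    by_cases hi : i < n
    · simp only [hi, if_true]; exact hb i hi
    · simp only [hi, if_false, norm_zero]; exact zero_le_one
  set c : ℕ → ResidueOmega q := fun i => redOmega q ⟨b' i, hb'O i⟩ with hc
  have hcQ : ∀ i < n, c i ^ (q ^ f) = c i := by
    intro i hi
    rw [← hQ, hc]
    simp only
    rw [← map_pow]
    refine (redOmega_eq_iff ((⟨b' i, hb'O i⟩ : padicIntegers q) ^ resCard K) ⟨b' i, hb'O i⟩).mpr ?_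
    have hbi : b' i = b i := by rw [hb']; simp only [hi, if_true]
    have := norm_pow_resCard_sub_lt K (x := ⟨b i, hbK i hi⟩) (hb i hi)
    show ‖b' i ^ resCard K - b' i‖ < 1
    rw [hbi]
    exact this
  have hsum : ∑ i ∈ Finset.range n, c i * (redOmega q ⟨ζ, hζO⟩) ^ i = 0 := by
    have h1 : ∑ i ∈ Finset.range n, c i * (redOmega q ⟨ζ, hζO⟩) ^ i =
        redOmega q (∑ i ∈ Finset.range n, ⟨b' i, hb'O i⟩ * (⟨ζ, hζO⟩ : padicIntegers q) ^ i) := by
      rw [map_sum]
      refine Finset.sum_congr rfl (fun i _ => ?_)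
      rw [map_mul, map_pow]
    rw [h1, redOmega_eq_zero_iff]
    have h2 : ((∑ i ∈ Finset.range n, ⟨b' i, hb'O i⟩ * (⟨ζ, hζO⟩ : padicIntegers q) ^ i :
        padicIntegers q) : PadicAlgCl q) = ∑ i ∈ Finset.range n, b i * ζ ^ i := by
      rw [← ValuationSubring.subtype_apply, map_sum]
      refine Finset.sum_congr rfl (fun i hi => ?_)
      have hi' : i < n := Finset.mem_range.mp hi
      rw [map_mul, map_pow]
      show b' i * ζ ^ i = b i * ζ ^ i
      rw [hb']; simp only [hi', if_true]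
    rw [h2]
    exact h
  have hzero := eq_zero_of_sum_pow_eq_zero (q := q) hf.ne' (by rw [← hQ]; exact hz) c hcQ hsum
  intro i hi
  have h0 := hzero i hi
  rw [hc] at h0
  simp only at h0
  rw [redOmega_eq_zero_iff] at h0
  have hbi : b' i = b i := by rw [hb']; simp only [hi, if_true]
  show ‖b i‖ < 1
  rw [← hbi]
  exact h0

/-- **Max-norm formula**: `‖∑_{i<n} a i ζ^i‖ = max_i ‖a i‖` for `a i ∈ K`. -/
theorem exists_norm_sum_eq {n : ℕ} (hn : 0 < n) {ζ : PadicAlgCl q}
    (hζ : orderOf ζ = resCard K ^ n - 1) (a : ℕ → PadicAlgCl q) (haK : ∀ i < n, a i ∈ K) :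
    ∃ j < n, ‖∑ i ∈ Finset.range n, a i * ζ ^ i‖ = ‖a j‖ ∧ ∀ i < n, ‖a i‖ ≤ ‖a j‖ := by
  have hQ2 : 2 ≤ resCard K := two_le_resCard K
  have hQn : 2 ≤ resCard K ^ n := le_trans hQ2 (Nat.le_self_pow hn.ne' _)
  have hm0 : resCard K ^ n - 1 ≠ 0 := by omega
  have hζm : ζ ^ (resCard K ^ n - 1) = 1 := by rw [← hζ]; exact pow_orderOf_eq_one ζ
  have hζn : ‖ζ‖ = 1 := norm_eq_one_of_pow_eq_one hm0 hζm
  obtain ⟨j, hj, hmax⟩ := Finset.exists_max_image (Finset.range n) (fun i => ‖a i‖)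
    ⟨0, Finset.mem_range.mpr hn⟩
  have hj' : j < n := Finset.mem_range.mp hj
  have hmax' : ∀ i < n, ‖a i‖ ≤ ‖a j‖ := fun i hi => hmax i (Finset.mem_range.mpr hi)
  refine ⟨j, hj', ?_, hmax'⟩
  by_cases haj : a j = 0
  · have hall : ∀ i < n, a i = 0 := by
      intro i hi
      have := hmax' i hi
      rw [haj, norm_zero] at this
      exact norm_le_zero_iff.mp this
    rw [haj, norm_zero, Finset.sum_eq_zero (fun i hi => by
      rw [hall i (Finset.mem_range.mp hi), zero_mul]), norm_zero]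
  · have hajpos : 0 < ‖a j‖ := norm_pos_iff.mpr haj
    set b : ℕ → PadicAlgCl q := fun i => a i / a j with hb
    have hbK : ∀ i < n, b i ∈ K := fun i hi => K.div_mem (haK i hi) (haK j hj')
    have hb1 : ∀ i < n, ‖b i‖ ≤ 1 := by
      intro i hi
      rw [hb]
      simp only
      rw [norm_div]
      exact (div_le_one hajpos).mpr (hmax' i hi)
    have hsumle : ‖∑ i ∈ Finset.range n, b i * ζ ^ i‖ ≤ 1 := by
      refine norm_sum_le_of_le _ _ zero_le_one (fun i hi => ?_)
      rw [norm_mul, norm_pow, hζn, one_pow, mul_one]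
      exact hb1 i (Finset.mem_range.mp hi)
    have hsumeq : ‖∑ i ∈ Finset.range n, b i * ζ ^ i‖ = 1 := by
      by_contra hne
      have hlt := lt_of_le_of_ne hsumle hne
      have := norm_lt_one_of_norm_sum_lt K hn hζ b hbK hb1 hlt j hj'
      rw [hb] at this
      simp only at this
      rw [div_self haj, norm_one] at this
      exact lt_irrefl _ this
    have hfac : ∑ i ∈ Finset.range n, a i * ζ ^ i = a j * ∑ i ∈ Finset.range n, b i * ζ ^ i := by
      rw [Finset.mul_sum]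
      refine Finset.sum_congr rfl (fun i _ => ?_)
      rw [hb]
      simp only
      field_simp
    rw [hfac, norm_mul, hsumeq, mul_one]

end Fermat.Agent.S55.H45
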