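/-
S55 (Poitou–Tate), package C3, leaf L2 = `LeafUnram` (helper45): unramified extensions.

Model = helper66's `H66/LocalDefs.lean`: `F` an embedded local field (`[Algebra ℚ_[q] F]`,
`[Algebra F (PadicAlgCl q)]`, finite over `ℚ_q`), `Q = H66.resCard q F`,
`H66.unramExt q F n = F(μ_{Q^n - 1})` inside `Ω = PadicAlgCl q`.

Main result: `leafUnram q : H66.LeafUnram q`, i.e. for `n > 0` the extension `unramExt q F n / F`
is finite of degree `n`, Galois, cyclic, and unramified (`IsUnram`: no new norms).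

Proof.  Let `ζ` be a primitive `(Q^n - 1)`-th root of unity, so `unramExt q F n = F⟮ζ⟯`.
* degree `≤ n`: every conjugate of `ζ` is `ζ ^ (Q ^ i)`, `i < n` (`H45.exists_pow_of_fixing`);
* degree `≥ n` and `IsUnram`: the max-norm formula `‖∑_{i<n} a i ζ^i‖ = max ‖a i‖`
  (`H45.exists_norm_sum_eq`, from the independence of `1, ζ̄, …, ζ̄^(n-1)` over the residue field);
* Galois: splitting field of `X ^ (Q^n - 1) - 1`, characteristic zero;
* cyclic: the automorphism `ζ ↦ ζ ^ Q` exists (counting) and has order `n`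
  (`exists_frob_adjoin`).
-/
import Fermat.Agent.S55.H45.UnramOrth
import Fermat.Agent.S55.H66.LocalBridge

set_option autoImplicit false

open scoped NNReal
open Polynomial IntermediateField

namespace Fermat.Agent.S55.H45

variable (q : ℕ) [Fact q.Prime]

section
variable (F : Type) [Field F] [Algebra ℚ_[q] F] [Algebra F (PadicAlgCl q)]
  [IsScalarTower ℚ_[q] F (PadicAlgCl q)] [FiniteDimensional ℚ_[q] F]

omit [FiniteDimensional ℚ_[q] F] in
theorem resCard_absField : H66.resCard q F = resCard (H66.absField q F) :=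
  Nat.card_congr (IsLocalRing.ResidueField.mapEquiv (H66.intEquiv q F)).toEquiv

omit [FiniteDimensional ℚ_[q] F] in
theorem algebraMap_mem_absField (x : F) : algebraMap F (PadicAlgCl q) x ∈ H66.absField q F :=
  ⟨x, rfl⟩

/-- Max-norm formula in the `H66` model. -/
theorem exists_norm_aeval_eq {n : ℕ} (hn : 0 < n) {ζ : PadicAlgCl q}
    (hζ : orderOf ζ = H66.resCard q F ^ n - 1) (f : F[X]) (hf : f.natDegree < n) :
    ∃ j < n, ‖aeval ζ f‖ = H66.nrm q (f.coeff j) ∧
      ∀ i, H66.nrm q (f.coeff i) ≤ H66.nrm q (f.coeff j) := by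
  rw [resCard_absField] at hζ
  obtain ⟨j, hj, h1, h2⟩ := exists_norm_sum_eq (H66.absField q F) hn hζ
    (fun i => algebraMap F (PadicAlgCl q) (f.coeff i))
    (fun i _ => algebraMap_mem_absField q F _)
  refine ⟨j, hj, ?_, ?_⟩
  · rw [aeval_eq_sum_range' hf ζ]
    simp only [Algebra.smul_def]
    exact h1
  · intro i
    by_cases hi : i < n
    · exact h2 i hi
    · rw [coeff_eq_zero_of_natDegree_lt (lt_of_lt_of_le hf (not_lt.mp hi))]
      simp only [H66.nrm, map_zero, norm_zero]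
      exact norm_nonneg _

omit [Algebra ℚ_[q] F] [IsScalarTower ℚ_[q] F (PadicAlgCl q)] [FiniteDimensional ℚ_[q] F] in
theorem isIntegral_of_orderOf {m : ℕ} (hm : m ≠ 0) {ζ : PadicAlgCl q} (hζ : orderOf ζ = m) :
    IsIntegral F ζ := by
  refine ⟨X ^ m - 1, monic_X_pow_sub_C 1 hm, ?_⟩
  have : ζ ^ m = 1 := by rw [← hζ]; exact pow_orderOf_eq_one ζ
  simp [this]

theorem two_le_resCard' : 2 ≤ H66.resCard q F := by
  rw [resCard_absField]; exact two_le_resCard _

/-- Lower bound for the degree. -/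
theorem le_natDegree_minpoly {n : ℕ} (hn : 0 < n) {ζ : PadicAlgCl q}
    (hζ : orderOf ζ = H66.resCard q F ^ n - 1) : n ≤ (minpoly F ζ).natDegree := by
  have hQ2 := two_le_resCard' q F
  have hQn : 2 ≤ H66.resCard q F ^ n := le_trans hQ2 (Nat.le_self_pow hn.ne' _)
  have hint : IsIntegral F ζ := isIntegral_of_orderOf q F (by omega) hζ
  by_contra hlt
  rw [not_le] at hlt
  obtain ⟨j, -, h1, h2⟩ := exists_norm_aeval_eq q F hn hζ (minpoly F ζ) hlt
  rw [minpoly.aeval, norm_zero] at h1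
  have h3 : minpoly F ζ = 0 := by
    ext i
    have h4 := h2 i
    rw [← h1] at h4
    have h5 : ‖algebraMap F (PadicAlgCl q) ((minpoly F ζ).coeff i)‖ = 0 :=
      le_antisymm h4 (norm_nonneg _)
    rw [norm_eq_zero, map_eq_zero] at h5
    rw [h5, coeff_zero]
  exact minpoly.ne_zero hint h3

/-- Upper bound for the degree. -/
theorem natDegree_minpoly_le {n : ℕ} (hn : 0 < n) {ζ : PadicAlgCl q}
    (hζ : orderOf ζ = H66.resCard q F ^ n - 1) : (minpoly F ζ).natDegree ≤ n := by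
  have hQ2 := two_le_resCard' q F
  have hQn : 2 ≤ H66.resCard q F ^ n := le_trans hQ2 (Nat.le_self_pow hn.ne' _)
  have hint : IsIntegral F ζ := isIntegral_of_orderOf q F (by omega) hζ
  haveI : CharZero F := charZero_of_injective_algebraMap (algebraMap ℚ_[q] F).injective
  haveI : Normal F (PadicAlgCl q) := Normal.tower_top_of_normal ℚ_[q] F (PadicAlgCl q)
  have hsep : (minpoly F ζ).Separable := (minpoly.irreducible hint).separable
  have hcard := card_rootSet_eq_natDegree (K := PadicAlgCl q) hsep (IsAlgClosed.splits _)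
  have hζm : ζ ^ (H66.resCard q F ^ n - 1) = 1 := by rw [← hζ]; exact pow_orderOf_eq_one ζ
  have hζQ : ζ ^ (resCard (H66.absField q F) ^ n) = ζ := by
    rw [← resCard_absField]
    have : H66.resCard q F ^ n = (H66.resCard q F ^ n - 1) + 1 := by omega
    rw [this, pow_succ, hζm, one_mul]
  have key : ∀ r : (minpoly F ζ).rootSet (PadicAlgCl q),
      ∃ i : Fin n, (r : PadicAlgCl q) = ζ ^ (resCard (H66.absField q F) ^ (i : ℕ)) := by
    intro r
    have hr : aeval (r : PadicAlgCl q) (minpoly F ζ) = 0 := (mem_rootSet.mp r.2).2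
    obtain ⟨σ, hσ⟩ := minpoly.exists_algEquiv_of_root' hint.isAlgebraic hr
    obtain ⟨i, hi, h⟩ := exists_pow_of_fixing (H66.absField q F) (σ.restrictScalars ℚ_[q])
      (by
        rintro x ⟨y, rfl⟩
        exact σ.commutes y) hn hζQ
    exact ⟨⟨i, hi⟩, by rw [← hσ]; exact h⟩
  choose g hg using key
  have hinj : Function.Injective g := by
    intro r s hrs
    apply Subtype.ext
    rw [hg r, hg s, hrs]
  have := Fintype.card_le_of_injective g hinj
  rw [Fintype.card_fin] at this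
  rw [← hcard]
  convert this

variable {n : ℕ} {ζ : PadicAlgCl q}

omit [Algebra ℚ_[q] F] [IsScalarTower ℚ_[q] F (PadicAlgCl q)] [FiniteDimensional ℚ_[q] F] in
theorem unramExt_eq_adjoin (hprim : IsPrimitiveRoot ζ (H66.resCard q F ^ n - 1))
    (hm : H66.resCard q F ^ n - 1 ≠ 0) : H66.unramExt q F n = F⟮ζ⟯ := by
  apply le_antisymm
  · rw [H66.unramExt, adjoin_le_iff]
    intro η hη
    haveI : NeZero (H66.resCard q F ^ n - 1) := ⟨hm⟩
    obtain ⟨i, -, rfl⟩ := hprim.eq_pow_of_pow_eq_one hη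
    exact pow_mem (mem_adjoin_simple_self F ζ) i
  · rw [adjoin_simple_le_iff]
    exact subset_adjoin F _ hprim.pow_eq_one

theorem pow_sub_one_ne_zero (hn : 0 < n) : H66.resCard q F ^ n - 1 ≠ 0 := by
  have hQ2 := two_le_resCard' q F
  have hQn : 2 ≤ H66.resCard q F ^ n := le_trans hQ2 (Nat.le_self_pow hn.ne' _)
  omega

theorem finrank_adjoin (hn : 0 < n) (hζ : orderOf ζ = H66.resCard q F ^ n - 1) :
    Module.finrank F F⟮ζ⟯ = n := by
  rw [adjoin.finrank (isIntegral_of_orderOf q F (pow_sub_one_ne_zero q F hn) hζ)]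
  exact le_antisymm (natDegree_minpoly_le q F hn hζ) (le_natDegree_minpoly q F hn hζ)

theorem isUnram_adjoin (hn : 0 < n) (hζ : orderOf ζ = H66.resCard q F ^ n - 1) :
    H66.IsUnram q F F⟮ζ⟯ := by
  intro x
  have hint : IsIntegral F ζ := isIntegral_of_orderOf q F (pow_sub_one_ne_zero q F hn) hζ
  obtain ⟨f, hf, hx⟩ := (adjoin.powerBasis hint).exists_eq_aeval x
  have hdim : (adjoin.powerBasis hint).dim = n := by
    rw [adjoin.powerBasis_dim]
    exact le_antisymm (natDegree_minpoly_le q F hn hζ) (le_natDegree_minpoly q F hn hζ)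
  rw [hdim] at hf
  obtain ⟨j, -, h1, -⟩ := exists_norm_aeval_eq q F hn hζ f hf
  refine ⟨f.coeff j, ?_⟩
  rw [← h1]
  have h2 : ((x : F⟮ζ⟯) : PadicAlgCl q) = aeval ζ f := by
    rw [hx, adjoin.powerBasis_gen]
    have := Polynomial.aeval_algHom_apply (F⟮ζ⟯.val) (AdjoinSimple.gen F ζ) f
    have h3 : (F⟮ζ⟯.val) (AdjoinSimple.gen F ζ) = ζ := AdjoinSimple.coe_gen F ζ
    rw [h3] at this
    rw [this]
    rfl
  show ‖algebraMap F⟮ζ⟯ (PadicAlgCl q) x‖ = _
  rw [← h2]
  rfl

theorem isGalois_unramExt (hn : 0 < n) :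
    FiniteDimensional F (H66.unramExt q F n) ∧ IsGalois F (H66.unramExt q F n) := by
  haveI : CharZero F := charZero_of_injective_algebraMap (algebraMap ℚ_[q] F).injective
  have hm := pow_sub_one_ne_zero q F hn
  have hroot : (X ^ (H66.resCard q F ^ n - 1) - 1 : F[X]).rootSet (PadicAlgCl q) =
      {ζ : PadicAlgCl q | ζ ^ (H66.resCard q F ^ n - 1) = 1} := by
    ext η
    rw [mem_rootSet]
    have h0 : (X ^ (H66.resCard q F ^ n - 1) - 1 : F[X]) ≠ 0 :=
      X_pow_sub_C_ne_zero (Nat.pos_of_ne_zero hm) (1 : F)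
    simp [h0, sub_eq_zero]
  haveI hsf : (X ^ (H66.resCard q F ^ n - 1) - 1 : F[X]).IsSplittingField F
      (H66.unramExt q F n) := by
    rw [H66.unramExt, ← hroot]
    exact adjoin_rootSet_isSplittingField (IsAlgClosed.splits _)
  haveI : Normal F (H66.unramExt q F n) :=
    Normal.of_isSplittingField (X ^ (H66.resCard q F ^ n - 1) - 1 : F[X])
  haveI : FiniteDimensional F (H66.unramExt q F n) :=
    IsSplittingField.finiteDimensional _ (X ^ (H66.resCard q F ^ n - 1) - 1 : F[X])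
  exact ⟨inferInstance, ⟨⟩⟩

/-- The Galois group of `F(ζ)/F` acts on `ζ` through powers of the Frobenius. -/
theorem exists_pow_of_aut (hn : 0 < n) (hζ : orderOf ζ = H66.resCard q F ^ n - 1)
    (g : F⟮ζ⟯ ≃ₐ[F] F⟮ζ⟯) :
    ∃ i < n, g (AdjoinSimple.gen F ζ) = AdjoinSimple.gen F ζ ^ (H66.resCard q F ^ i) := by
  haveI : Normal F (PadicAlgCl q) := Normal.tower_top_of_normal ℚ_[q] F (PadicAlgCl q)
  have hm := pow_sub_one_ne_zero q F hn
  have hζm : ζ ^ (H66.resCard q F ^ n - 1) = 1 := by rw [← hζ]; exact pow_orderOf_eq_one ζ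
  have hζQ : ζ ^ (resCard (H66.absField q F) ^ n) = ζ := by
    rw [← resCard_absField]
    have : H66.resCard q F ^ n = (H66.resCard q F ^ n - 1) + 1 := by omega
    rw [this, pow_succ, hζm, one_mul]
  have hσ : (g.liftNormal (PadicAlgCl q)) ζ = ((g (AdjoinSimple.gen F ζ) : F⟮ζ⟯) : PadicAlgCl q) := by
    have := g.liftNormal_commutes (PadicAlgCl q) (AdjoinSimple.gen F ζ)
    rw [AdjoinSimple.algebraMap_gen] at this
    exact this
  obtain ⟨i, hi, h⟩ := exists_pow_of_fixing (H66.absField q F)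
    ((g.liftNormal (PadicAlgCl q)).restrictScalars ℚ_[q])
    (by
      rintro x ⟨y, rfl⟩
      exact (g.liftNormal (PadicAlgCl q)).commutes y) hn hζQ
  refine ⟨i, hi, Subtype.ext ?_⟩
  rw [← hσ, resCard_absField]
  exact h

/-- **The Frobenius of `F(ζ)/F`**: there is an automorphism with `ζ ↦ ζ ^ Q`; it has order `n`,
which is the order of the Galois group. -/
theorem exists_frob_adjoin (hn : 0 < n) (hζ : orderOf ζ = H66.resCard q F ^ n - 1)
    [IsGalois F F⟮ζ⟯] : ∃ g0 : F⟮ζ⟯ ≃ₐ[F] F⟮ζ⟯,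
      g0 (AdjoinSimple.gen F ζ) = AdjoinSimple.gen F ζ ^ H66.resCard q F ∧ orderOf g0 = n ∧
        Nat.card (F⟮ζ⟯ ≃ₐ[F] F⟮ζ⟯) = n := by
  have hm := pow_sub_one_ne_zero q F hn
  have hQ2 := two_le_resCard' q F
  have hint : IsIntegral F ζ := isIntegral_of_orderOf q F hm hζ
  haveI : FiniteDimensional F F⟮ζ⟯ := adjoin.finiteDimensional hint
  have hcard : Nat.card (F⟮ζ⟯ ≃ₐ[F] F⟮ζ⟯) = n := by
    rw [IsGalois.card_aut_eq_finrank, finrank_adjoin q F hn hζ]
  have hζm : ζ ^ (H66.resCard q F ^ n - 1) = 1 := by rw [← hζ]; exact pow_orderOf_eq_one ζ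
  have hζ0 : ζ ≠ 0 := by
    rintro rfl
    rw [zero_pow hm] at hζm
    exact zero_ne_one hζm
  have hgen0 : AdjoinSimple.gen F ζ ≠ 0 := by
    intro h0
    apply hζ0
    have := congrArg (fun x : F⟮ζ⟯ => (x : PadicAlgCl q)) h0
    simpa using this
  have hgenm : AdjoinSimple.gen F ζ ^ (H66.resCard q F ^ n - 1) = 1 :=
    Subtype.ext (by simpa using hζm)
  -- extensionality
  have hext : ∀ g g' : F⟮ζ⟯ ≃ₐ[F] F⟮ζ⟯,
      g (AdjoinSimple.gen F ζ) = g' (AdjoinSimple.gen F ζ) → g = g' := by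
    intro g g' h
    have h2 : (g : F⟮ζ⟯ →ₐ[F] F⟮ζ⟯) = g' := (adjoin.powerBasis hint).algHom_ext h
    exact AlgEquiv.coe_toAlgHom_injective h2
  choose φ hφlt hφ using exists_pow_of_aut q F hn hζ
  let ψ : (F⟮ζ⟯ ≃ₐ[F] F⟮ζ⟯) → Fin n := fun g => ⟨φ g, hφlt g⟩
  have hinj : Function.Injective ψ := by
    intro g g' hgg'
    have h1 : φ g = φ g' := congrArg Fin.val hgg'
    exact hext g g' (by rw [hφ g, hφ g', h1])
  have hbij : Function.Bijective ψ :=
    hinj.bijective_of_nat_card_le (by rw [hcard, Nat.card_fin])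
  obtain ⟨g0, hg0⟩ := hbij.2 ⟨1 % n, Nat.mod_lt _ hn⟩
  have hg0' : φ g0 = 1 % n := congrArg Fin.val hg0
  have hg0gen : g0 (AdjoinSimple.gen F ζ) = AdjoinSimple.gen F ζ ^ H66.resCard q F := by
    rw [hφ g0, hg0']
    rcases Nat.lt_or_ge 1 n with h1 | h1
    · rw [Nat.mod_eq_of_lt h1, pow_one]
    · have hn1 : n = 1 := le_antisymm h1 hn
      subst hn1
      rw [Nat.mod_self, pow_zero, pow_one]
      rw [pow_one] at hgenm
      have : H66.resCard q F = (H66.resCard q F - 1) + 1 := by omega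
      rw [this, pow_succ, hgenm, one_mul]
  have hpow : ∀ k : ℕ, (g0 ^ k) (AdjoinSimple.gen F ζ) =
      AdjoinSimple.gen F ζ ^ (H66.resCard q F ^ k) := by
    intro k
    induction k with
    | zero => simp
    | succ k ih =>
      rw [pow_succ', AlgEquiv.mul_apply, ih, map_pow, hg0gen, ← pow_mul, ← pow_succ']
  have horder : orderOf g0 = n := by
    rw [orderOf_eq_iff hn]
    refine ⟨?_, ?_⟩
    · apply hext
      rw [hpow, AlgEquiv.one_apply]
      have : H66.resCard q F ^ n = (H66.resCard q F ^ n - 1) + 1 := by omega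
      rw [this, pow_succ, hgenm, one_mul]
    · intro k hk hk0 h1
      have h2 := hpow k
      rw [h1, AlgEquiv.one_apply] at h2
      have hQk : 2 ≤ H66.resCard q F ^ k := le_trans hQ2 (Nat.le_self_pow hk0.ne' _)
      have h3 : ζ ^ (H66.resCard q F ^ k - 1) = 1 := by
        have h4 := congrArg (fun x : F⟮ζ⟯ => (x : PadicAlgCl q)) h2
        simp only [AdjoinSimple.coe_gen, SubmonoidClass.coe_pow] at h4
        have h5 : H66.resCard q F ^ k = (H66.resCard q F ^ k - 1) + 1 := by omega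
        rw [h5, pow_succ] at h4
        have h6 : ζ ^ (H66.resCard q F ^ k - 1) * ζ = 1 * ζ := by rw [one_mul]; exact h4.symm
        exact mul_right_cancel₀ hζ0 h6
      have h7 : H66.resCard q F ^ n - 1 ∣ H66.resCard q F ^ k - 1 := by
        rw [← hζ]; exact orderOf_dvd_of_pow_eq_one h3
      have h8 : H66.resCard q F ^ k < H66.resCard q F ^ n := Nat.pow_lt_pow_right (by omega) hk
      have h9 := Nat.le_of_dvd (by omega) h7
      omega
  exact ⟨g0, hg0gen, horder, hcard⟩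

theorem isCyclic_adjoin (hn : 0 < n) (hζ : orderOf ζ = H66.resCard q F ^ n - 1)
    [IsGalois F F⟮ζ⟯] : IsCyclic (F⟮ζ⟯ ≃ₐ[F] F⟮ζ⟯) := by
  obtain ⟨g0, -, horder, hcard⟩ := exists_frob_adjoin q F hn hζ
  haveI : FiniteDimensional F F⟮ζ⟯ :=
    adjoin.finiteDimensional (isIntegral_of_orderOf q F (pow_sub_one_ne_zero q F hn) hζ)
  exact isCyclic_of_orderOf_eq_card g0 (by rw [hcard]; exact horder)

omit [FiniteDimensional ℚ_[q] F] in
/-- A primitive root of unity of the relevant order exists in `PadicAlgCl q`. -/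
theorem exists_orderOf_eq {m : ℕ} (hm : m ≠ 0) :
    ∃ ζ : PadicAlgCl q, IsPrimitiveRoot ζ m := by
  haveI : NeZero ((m : ℕ) : PadicAlgCl q) := ⟨Nat.cast_ne_zero.mpr hm⟩
  exact HasEnoughRootsOfUnity.exists_primitiveRoot (PadicAlgCl q) m

end

/-- **C3 leaf L2 (`LeafUnram`)**: `unramExt q F n / F` is finite of degree `n`, Galois, cyclic and
unramified. -/
theorem leafUnram : H66.LeafUnram q := by
  intro F _ _ _ _ _ n hn
  have hm := pow_sub_one_ne_zero q F hn
  obtain ⟨ζ, hprim⟩ := exists_orderOf_eq q (m := H66.resCard q F ^ n - 1) hm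
  have hζ : orderOf ζ = H66.resCard q F ^ n - 1 := hprim.eq_orderOf.symm
  have hE := unramExt_eq_adjoin q F hprim hm
  obtain ⟨hfd, hgal⟩ := isGalois_unramExt q F (n := n) hn
  refine ⟨hfd, ?_, hgal, ?_, ?_⟩
  · rw [hE]; exact finrank_adjoin q F hn hζ
  · revert hgal
    rw [hE]
    intro hgal
    exact isCyclic_adjoin q F hn hζ
  · rw [hE]; exact isUnram_adjoin q F hn hζ

end Fermat.Agent.S55.H45

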