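/-
S55 (Poitou–Tate), package C1, leaf C1-d, degree 1 (helper45): the statement
`isZero_H1_of_prime_layers` of helper84's `C1Spec`, VERBATIM, from the landed C1-b
(`Fermat.Agent.S55.H80`) and the conditional core `Fermat.Agent.S55.H45.PrimeLayers`.
-/
import Fermat.Agent.S55.H45.PrimeLayers
import Fermat.Agent.S55.H80.ResIndexCor

set_option autoImplicit false

universe u

open CategoryTheory groupCohomology Rep

namespace Fermat.Agent.S55.H45

variable {k G : Type u} [CommRing k] [Group G]

/-- C1-b, `card_smul_eq_zero`, in the shape consumed by `PrimeLayers`. -/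
theorem cardSmulStatement (k : Type u) [CommRing k] : CardSmulStatement k :=
  fun _ _ _ A n hn x => H80.card_smul_eq_zero A n hn x

/-- C1-b, `isZero_of_forall_prime`, in the shape consumed by `PrimeLayers`. -/
theorem sylowZeroStatement (k : Type u) [CommRing k] : SylowZeroStatement k :=
  fun _ _ _ A n hn h => H80.isZero_of_forall_prime A n hn h

/-- C1-b, `natCard_dvd_card_of_forall_prime`, in the shape consumed by `PrimeLayers`. -/
theorem sylowCardStatement (k : Type u) [CommRing k] : SylowCardStatement k :=
  fun _ _ _ A n hn h => H80.natCard_dvd_card_of_forall_prime A n hn h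

/-- **C1-d (degree 1).**  If `H¹(H ⧸ N, A^N) = 0` for all subgroups `N ⊴ H ≤ G` with `H ⧸ N` of
prime order, then `H¹(G, A) = 0`. -/
theorem isZero_H1_of_prime_layers [Finite G] (A : Rep k G)
    (h : ∀ (H : Subgroup G) (N : Subgroup H) [N.Normal], (Nat.card (H ⧸ N)).Prime →
      Limits.IsZero (groupCohomology ((res H.subtype A).quotientToInvariants N) 1)) :
    Limits.IsZero (groupCohomology A 1) :=
  isZero_H1_of_prime_layers_of (cardSmulStatement k) (sylowZeroStatement k) A h

/-- **C1-d (degree 2), modulo C1-c.**  The degree-2 statement of `C1Spec` from the exactness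
statement of inflation–restriction in degree 2 (`InfRes2Statement`, C1-c). -/
theorem natCard_H2_dvd_card_of_prime_layers_of_infRes (hir : InfRes2Statement k)
    [Finite G] (A : Rep k G)
    (h1 : ∀ H : Subgroup G, Limits.IsZero (groupCohomology (res H.subtype A) 1))
    (h2 : ∀ (H : Subgroup G) (N : Subgroup H) [N.Normal], (Nat.card (H ⧸ N)).Prime →
      Nat.card (groupCohomology ((res H.subtype A).quotientToInvariants N) 2) ∣
        Nat.card (H ⧸ N)) :
    Nat.card (groupCohomology A 2) ∣ Nat.card G :=
  natCard_H2_dvd_card_of_prime_layers_of (cardSmulStatement k) (sylowCardStatement k) hir A h1 h2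

end Fermat.Agent.S55.H45
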