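/-
S55 (Poitou–Tate), package C5 → C8, leaf (L4) = (SUBTOWER-COMPAT), UNCONDITIONAL (helper45).

`subTowerCompatStatement k E K : H88.SubTowerCompatStatement k K E` for number fields
`k ⊆ E ⊆ K`, `K / k` finite normal: `H45.subTowerCompat` with its two hypotheses discharged by
`H76.leafInvRes_holds` (C3, helper76) and `H20.linvIndep` (LINV-INDEP, helper20).
-/
import Fermat.Agent.S55.H45.SubTowerCompat
import Fermat.Agent.S55.H76.InvResFinal
import Fermat.Agent.S55.H20.LinvIndep

set_option autoImplicit false

namespace Fermat.Agent.S55.H45

open Fermat.Agent.S55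

/-- **(L4) SUBTOWER-COMPAT**, unconditional: restriction to `Gal(K/E)` multiplies the local
invariants by the local degrees. -/
theorem subTowerCompatStatement (k E K : Type) [Field k] [Field E] [Field K] [NumberField k]
    [Algebra k E] [Algebra E K] [Algebra k K] [IsScalarTower k E K] [FiniteDimensional k K]
    [Normal k K] : H88.SubTowerCompatStatement k K E :=
  subTowerCompat k E K (fun q _ => H76.leafInvRes_holds q) (H20.linvIndep k K)

end Fermat.Agent.S55.H45
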