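/-
S55 (Poitou–Tate), package C3, foundation leaf (F4) = L2, part 3 (helper45): two lemmas on a
field `κ` of characteristic `q` (no finiteness), used for the residue field of `PadicAlgCl q`.
`Q = q ^ f`; the elements fixed by `x ↦ x ^ Q` play the role of the subfield with `Q` elements.

* `coeff_prod_frobOrbit_pow` : the coefficients of `∏_{i<n} (X - z^(Q^i))` are fixed by
  `x ↦ x ^ Q` when `z ^ (Q ^ n) = z`;
* `eq_zero_of_sum_pow_eq_zero` : if `z` has multiplicative order `Q ^ n - 1`, then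
  `1, z, …, z^(n-1)` are linearly independent over the elements fixed by `x ↦ x ^ Q`.
Mathlib only.
-/
import Mathlib

set_option autoImplicit false

open Polynomial

namespace Fermat.Agent.S55.H45

section

variable {κ : Type*} [Field κ] {q : ℕ} [Fact q.Prime] [CharP κ q]

/-- The polynomial `∏_{i<n} (X - z^(Q^i))`. -/
noncomputable def frobOrbitPoly (z : κ) (Q n : ℕ) : κ[X] :=
  ∏ i ∈ Finset.range n, (X - C (z ^ (Q ^ i)))

lemma frobOrbitPoly_monic (z : κ) (Q n : ℕ) : (frobOrbitPoly z Q n).Monic :=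
  monic_prod_of_monic _ _ (fun i _ => monic_X_sub_C _)

lemma frobOrbitPoly_natDegree (z : κ) (Q n : ℕ) : (frobOrbitPoly z Q n).natDegree = n := by
  rw [frobOrbitPoly, natDegree_prod_of_monic _ _ (fun i _ => monic_X_sub_C _),
    Finset.sum_congr rfl (fun i _ => natDegree_X_sub_C (z ^ (Q ^ i)))]
  simp

lemma eval_frobOrbitPoly_eq_zero_iff (z : κ) (Q n : ℕ) (w : κ) :
    (frobOrbitPoly z Q n).eval w = 0 ↔ ∃ i < n, w = z ^ (Q ^ i) := by
  rw [frobOrbitPoly, eval_prod, Finset.prod_eq_zero_iff]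
  constructor
  · rintro ⟨i, hi, h⟩
    rw [eval_sub, eval_X, eval_C, sub_eq_zero] at h
    exact ⟨i, Finset.mem_range.mp hi, h⟩
  · rintro ⟨i, hi, h⟩
    exact ⟨i, Finset.mem_range.mpr hi, by rw [eval_sub, eval_X, eval_C, sub_eq_zero]; exact h⟩

/-- The orbit polynomial is fixed by the `Q`-Frobenius. -/
lemma map_frobOrbitPoly (z : κ) (f n : ℕ) (hz : z ^ ((q ^ f) ^ n) = z) :
    (frobOrbitPoly z (q ^ f) n).map (iterateFrobenius κ q f) = frobOrbitPoly z (q ^ f) n := by
  set g : ℕ → κ[X] := fun i => X - C (z ^ ((q ^ f) ^ i)) with hg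
  have h1 : (frobOrbitPoly z (q ^ f) n).map (iterateFrobenius κ q f) =
      ∏ i ∈ Finset.range n, g (i + 1) := by
    rw [frobOrbitPoly, Polynomial.map_prod]
    refine Finset.prod_congr rfl (fun i _ => ?_)
    rw [Polynomial.map_sub, map_X, map_C, iterateFrobenius_def, ← pow_mul, ← pow_succ]
  have h2 : (∏ i ∈ Finset.range n, g (i + 1)) * g 0 = (∏ i ∈ Finset.range n, g i) * g n := by
    rw [← Finset.prod_range_succ', Finset.prod_range_succ]
  have h3 : g n = g 0 := by
    simp only [hg, pow_zero, pow_one, hz]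
  have h4 : g 0 ≠ 0 := X_sub_C_ne_zero _
  rw [h1]
  rw [h3] at h2
  exact mul_right_cancel₀ h4 h2

/-- The coefficients of the orbit polynomial are fixed by `x ↦ x ^ Q`. -/
theorem coeff_frobOrbitPoly_pow (z : κ) (f n : ℕ) (hz : z ^ ((q ^ f) ^ n) = z) (j : ℕ) :
    (frobOrbitPoly z (q ^ f) n).coeff j ^ (q ^ f) = (frobOrbitPoly z (q ^ f) n).coeff j := by
  have h := congrArg (fun P : κ[X] => P.coeff j) (map_frobOrbitPoly z f n hz)
  simp only [coeff_map, iterateFrobenius_def] at h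
  exact h

/-- Elements fixed by `x ↦ x ^ Q` are fixed by `x ↦ x ^ (Q ^ j)`. -/
lemma pow_pow_eq_self_of_pow_eq_self {c : κ} {Q : ℕ} (hc : c ^ Q = c) (j : ℕ) :
    c ^ (Q ^ j) = c := by
  induction j with
  | zero => rw [pow_zero, pow_one]
  | succ j ih => rw [pow_succ, pow_mul, ih, hc]

/-- **Independence of the powers of a generator**: if `z` has multiplicative order `Q ^ n - 1`
(`Q = q ^ f > 1`), `c i ^ Q = c i` and `∑_{i<n} c i * z ^ i = 0`, then all `c i` vanish. -/
theorem eq_zero_of_sum_pow_eq_zero {z : κ} {f n : ℕ} (hf : f ≠ 0)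
    (hz : orderOf z = (q ^ f) ^ n - 1) (c : ℕ → κ) (hc : ∀ i < n, c i ^ (q ^ f) = c i)
    (hsum : ∑ i ∈ Finset.range n, c i * z ^ i = 0) : ∀ i < n, c i = 0 := by
  have hq : q.Prime := Fact.out
  set Q := q ^ f with hQ
  have hQ2 : 2 ≤ Q := by
    rw [hQ]
    exact le_trans hq.two_le (Nat.le_self_pow hf q)
  rcases Nat.eq_zero_or_pos n with hn0 | hn0
  · intro i hi; omega
  have hQn : 2 ≤ Q ^ n := le_trans hQ2 (Nat.le_self_pow hn0.ne' Q)
  have hz0 : z ≠ 0 := by
    rintro rfl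
    rw [orderOf_zero] at hz
    omega
  -- the polynomial
  set g : κ[X] := ∑ i ∈ Finset.range n, C (c i) * X ^ i with hgdef
  have hgcoeff : ∀ m : ℕ, g.coeff m = if m < n then c m else 0 := by
    intro m
    rw [hgdef, finset_sum_coeff]
    simp only [coeff_C_mul_X_pow]
    split_ifs with hm
    · rw [Finset.sum_eq_single m]
      · simp
      · intro b _ hb; simp [hb.symm]
      · intro h; exact absurd (Finset.mem_range.mpr hm) h
    · refine Finset.sum_eq_zero (fun i hi => ?_)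
      have : m ≠ i := fun h => hm (h ▸ Finset.mem_range.mp hi)
      simp [this]
  have hgdeg : g.natDegree < n := by
    have h1 : g.degree < (n : WithBot ℕ) := by
      rw [degree_lt_iff_coeff_zero]
      intro m hm
      rw [hgcoeff, if_neg (by omega)]
    by_cases hg0 : g = 0
    · rw [hg0, natDegree_zero]; exact hn0
    · exact (natDegree_lt_iff_degree_lt hg0).mpr h1
  have hgeval : ∀ w : κ, g.eval w = ∑ i ∈ Finset.range n, c i * w ^ i := by
    intro w
    simp [hgdef, eval_finset_sum]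
  -- the n distinct roots
  have hroot : ∀ j : Fin n, g.eval (z ^ (Q ^ (j : ℕ))) = 0 := by
    intro j
    rw [hgeval]
    have h1 : ∑ i ∈ Finset.range n, c i * (z ^ (Q ^ (j : ℕ))) ^ i =
        iterateFrobenius κ q (f * j) (∑ i ∈ Finset.range n, c i * z ^ i) := by
      rw [map_sum]
      refine Finset.sum_congr rfl (fun i hi => ?_)
      have e1 : q ^ (f * (j : ℕ)) = Q ^ (j : ℕ) := by rw [hQ, pow_mul]
      have e2 : c i ^ (Q ^ (j : ℕ)) = c i :=
        pow_pow_eq_self_of_pow_eq_self (hc i (Finset.mem_range.mp hi)) j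
      have e3 : (z ^ i) ^ (Q ^ (j : ℕ)) = (z ^ (Q ^ (j : ℕ))) ^ i :=
        ((pow_mul z i (Q ^ (j : ℕ))).symm.trans (by rw [mul_comm])).trans
          (pow_mul z (Q ^ (j : ℕ)) i)
      show c i * (z ^ (Q ^ (j : ℕ))) ^ i = (c i * z ^ i) ^ (q ^ (f * (j : ℕ)))
      rw [e1, mul_pow, e2, e3]
    rw [h1, hsum, map_zero]
  have hinj : Function.Injective (fun j : Fin n => z ^ (Q ^ (j : ℕ))) := by
    have key : ∀ a b : ℕ, a < b → b < n → z ^ (Q ^ a) ≠ z ^ (Q ^ b) := by
      intro a b hab hbn heq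
      have hle : Q ^ a ≤ Q ^ b := Nat.pow_le_pow_right (by omega) hab.le
      have hlt : Q ^ a < Q ^ b := Nat.pow_lt_pow_right (by omega) hab
      have h1 : z ^ (Q ^ b) = z ^ (Q ^ a) * z ^ (Q ^ b - Q ^ a) := by
        rw [← pow_add]; congr 1; omega
      have h2 : z ^ (Q ^ b - Q ^ a) = 1 := by
        have h3 : z ^ (Q ^ a) * 1 = z ^ (Q ^ a) * z ^ (Q ^ b - Q ^ a) := by
          rw [mul_one, ← h1, heq]
        exact (mul_left_cancel₀ (pow_ne_zero _ hz0) h3).symm
      have h4 : orderOf z ∣ Q ^ b - Q ^ a := orderOf_dvd_of_pow_eq_one h2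
      rw [hz] at h4
      have h5 : Q ^ b ≤ Q ^ (n - 1) := Nat.pow_le_pow_right (by omega) (by omega)
      have h6 : Q ^ (n - 1) * 2 ≤ Q ^ n := by
        calc Q ^ (n - 1) * 2 ≤ Q ^ (n - 1) * Q := Nat.mul_le_mul_left _ hQ2
          _ = Q ^ n := by rw [← pow_succ]; congr 1; omega
      have h7 : 1 ≤ Q ^ a := Nat.one_le_pow _ _ (by omega)
      have h8 := Nat.le_of_dvd (by omega) h4
      omega
    intro j j' hjj
    by_contra hne
    rcases lt_or_gt_of_ne (fun h => hne (Fin.ext h)) with h | h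
    · exact key j j' h j'.2 hjj
    · exact key j' j h j.2 hjj.symm
  have hg0 : g = 0 :=
    eq_zero_of_natDegree_lt_card_of_eval_eq_zero g hinj hroot (by rw [Fintype.card_fin]; exact hgdeg)
  intro i hi
  have h1 : g.coeff i = c i := by rw [hgcoeff, if_pos hi]
  rw [← h1, hg0, coeff_zero]

end

end Fermat.Agent.S55.H45
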